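import Mathlib

open Finset

namespace Fermat.Agent.S11

/-- The cofactor `(u ^ p + v ^ p) / (u + v)` for odd `p`. -/
def sgPhi {R : Type*} [CommRing R] (p : ℕ) (u v : R) : R :=
  ∑ i ∈ range p, u ^ i * (-v) ^ (p - 1 - i)

lemma sgPhi_mul {R : Type*} [CommRing R] {p : ℕ} (hodd : Odd p) (u v : R) :
    sgPhi p u v * (u + v) = u ^ p + v ^ p := by
  have := geom_sum₂_mul u (-v) p
  rw [hodd.neg_pow] at this
  simpa [sgPhi, sub_neg_eq_add] using this

lemma sgPhi_map {R S : Type*} [CommRing R] [CommRing S] (f : R →+* S) (p : ℕ) (u v : R) :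
    f (sgPhi p u v) = sgPhi p (f u) (f v) := by
  simp [sgPhi, map_sum]

lemma sgPhi_neg_self {R : Type*} [CommRing R] (p : ℕ) (u : R) :
    sgPhi p u (-u) = p * u ^ (p - 1) := by
  simp only [sgPhi, neg_neg]
  exact geom_sum₂_self u p

lemma sgPhi_zero_right {R : Type*} [CommRing R] {p : ℕ} (hp : 0 < p) (u : R) :
    sgPhi p u 0 = u ^ (p - 1) := by
  unfold sgPhi
  rw [Finset.sum_eq_single (p - 1)]
  · simp
  · intro i hi hne
    have hi' := Finset.mem_range.1 hi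
    have : p - 1 - i ≠ 0 := by omega
    simp [this]
  · intro h
    exact absurd (Finset.mem_range.2 (by omega)) h

lemma sg_coprime {p : ℕ} (hp : p.Prime) (hodd : Odd p) {u v w : ℤ} (huv : IsCoprime u v)
    (h : u ^ p + v ^ p + w ^ p = 0) (hw : ¬ (p : ℤ) ∣ w) :
    IsCoprime (sgPhi p u v) (u + v) := by
  apply isCoprime_of_prime_dvd
  · rintro ⟨-, h0⟩
    apply hw
    have h1 : u ^ p + v ^ p = 0 := by rw [← sgPhi_mul hodd, h0, mul_zero]
    have h2 : w ^ p = 0 := by linarith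
    have h3 : w = 0 := by simpa [hp.ne_zero] using h2
    simp [h3]
  · intro r hr hr1 hr2
    have hsub : r ∣ u - (-v) := by simpa using hr2
    have h3 : r ∣ (p : ℤ) * u ^ (p - 1) := (dvd_geom_sum₂_iff_of_dvd_sub' hsub).1 hr1
    rcases hr.dvd_or_dvd h3 with h4 | h4
    · -- r ∣ p
      have hpp : Prime (p : ℤ) := Nat.prime_iff_prime_int.1 hp
      have hass : Associated r (p : ℤ) := hr.associated_of_dvd hpp h4
      have h5 : (p : ℤ) ∣ u + v := hass.symm.dvd.trans hr2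
      have h6 : (p : ℤ) ∣ u ^ p + v ^ p := by
        rw [← sgPhi_mul hodd]; exact Dvd.dvd.mul_left h5 _
      have h7 : (p : ℤ) ∣ w ^ p := by
        have : w ^ p = -(u ^ p + v ^ p) := by linarith
        rw [this]; exact (dvd_neg).2 h6
      exact hw (hpp.dvd_of_dvd_pow h7)
    · have h5 : r ∣ u := hr.dvd_of_dvd_pow h4
      have h6 : r ∣ v := (dvd_add_right h5).1 hr2
      exact hr.not_isUnit (huv.isUnit_of_dvd' h5 h6)

lemma sg_pow {p : ℕ} (hp : p.Prime) (hodd : Odd p) {u v w : ℤ} (huv : IsCoprime u v)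
    (h : u ^ p + v ^ p + w ^ p = 0) (hw : ¬ (p : ℤ) ∣ w) :
    (∃ α : ℤ, sgPhi p u v = α ^ p) ∧ ∃ A : ℤ, u + v = A ^ p := by
  apply Int.eq_pow_of_mul_eq_pow_odd (c := -w) (sg_coprime hp hodd huv h hw) hodd
  rw [sgPhi_mul hodd, hodd.neg_pow]
  linarith

/-- Core of Sophie Germain's argument: the auxiliary prime `q` cannot divide `x`. -/
lemma sg_core {p q : ℕ} (hp : p.Prime) (hodd : Odd p) (hq : q.Prime)
    (h1 : ∀ x y z : ZMod q, x ^ p + y ^ p + z ^ p = 0 → x = 0 ∨ y = 0 ∨ z = 0)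
    (h2 : ∀ x : ZMod q, x ^ p ≠ (p : ZMod q))
    {x y z : ℤ} (hxy : IsCoprime x y) (hyz : IsCoprime y z) (hzx : IsCoprime z x)
    (h : x ^ p + y ^ p + z ^ p = 0)
    (hpx : ¬ (p : ℤ) ∣ x) (hpy : ¬ (p : ℤ) ∣ y) (hpz : ¬ (p : ℤ) ∣ z)
    (hqx : (x : ZMod q) = 0) : False := by
  have : Fact q.Prime := ⟨hq⟩
  obtain ⟨⟨α, hα⟩, ⟨A, hA⟩⟩ := sg_pow hp hodd hyz (w := x) (by linarith) hpx
  obtain ⟨-, ⟨B, hB⟩⟩ := sg_pow hp hodd hzx (w := y) (by linarith) hpy
  obtain ⟨⟨γ, hγ⟩, ⟨C, hC⟩⟩ := sg_pow hp hodd hxy.symm (w := z) (by linarith) hpz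
  have hqprime : Prime (q : ℤ) := Nat.prime_iff_prime_int.1 hq
  have hqx' : (q : ℤ) ∣ x := (ZMod.intCast_zmod_eq_zero_iff_dvd x q).1 hqx
  have hy0 : (y : ZMod q) ≠ 0 := by
    intro hy
    have hqy' : (q : ℤ) ∣ y := (ZMod.intCast_zmod_eq_zero_iff_dvd y q).1 hy
    exact hqprime.not_isUnit (hxy.isUnit_of_dvd' hqx' hqy')
  have hz0 : (z : ZMod q) ≠ 0 := by
    intro hz
    have hqz' : (q : ℤ) ∣ z := (ZMod.intCast_zmod_eq_zero_iff_dvd z q).1 hz
    exact hqprime.not_isUnit (hzx.isUnit_of_dvd' hqz' hqx')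
  have hAq : (y : ZMod q) + z = (A : ZMod q) ^ p := by exact_mod_cast congrArg (Int.cast : ℤ → ZMod q) hA
  have hBq : (z : ZMod q) + x = (B : ZMod q) ^ p := by exact_mod_cast congrArg (Int.cast : ℤ → ZMod q) hB
  have hCq : (y : ZMod q) + x = (C : ZMod q) ^ p := by exact_mod_cast congrArg (Int.cast : ℤ → ZMod q) hC
  have hsum : (B : ZMod q) ^ p + (C : ZMod q) ^ p + (-(A : ZMod q)) ^ p = 0 := by
    rw [hodd.neg_pow, ← hAq, ← hBq, ← hCq, hqx]; ring
  have hA0 : (A : ZMod q) = 0 := by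
    rcases h1 _ _ _ hsum with hB0 | hC0 | hA0
    · exfalso
      rw [hB0, zero_pow hp.ne_zero, hqx, add_zero] at hBq
      exact hz0 hBq
    · exfalso
      rw [hC0, zero_pow hp.ne_zero, hqx, add_zero] at hCq
      exact hy0 hCq
    · simpa using hA0
  have hzy : (z : ZMod q) = -(y : ZMod q) := by
    rw [hA0, zero_pow hp.ne_zero] at hAq
    exact eq_neg_of_add_eq_zero_right hAq
  have hαq : (α : ZMod q) ^ p = p * (y : ZMod q) ^ (p - 1) := by
    have := congrArg (Int.castRingHom (ZMod q)) hα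
    rw [sgPhi_map, map_pow] at this
    simp only [eq_intCast] at this
    rw [← this, hzy, sgPhi_neg_self]
  have hγq : (γ : ZMod q) ^ p = (y : ZMod q) ^ (p - 1) := by
    have := congrArg (Int.castRingHom (ZMod q)) hγ
    rw [sgPhi_map, map_pow] at this
    simp only [eq_intCast] at this
    rw [← this, hqx, sgPhi_zero_right hp.pos]
  have hγ0 : (γ : ZMod q) ^ p ≠ 0 := by
    rw [hγq]; exact pow_ne_zero _ hy0
  apply h2 ((α : ZMod q) / γ)
  rw [div_pow, hαq, hγq, mul_div_assoc, div_self (by rw [← hγq]; exact hγ0), mul_one]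

lemma sg_coprime_third {p : ℕ} (hp : p ≠ 0) {a b c : ℤ} (hab : IsCoprime a b)
    (h : a ^ p + b ^ p + c ^ p = 0) : IsCoprime b c := by
  have h3 : IsCoprime b (c ^ p) := by
    have h4 : c ^ p = -(a ^ p) + b * (-(b ^ (p - 1))) := by
      have : b * b ^ (p - 1) = b ^ p := by
        rw [← pow_succ']; congr 1; omega
      linear_combination h + this
    rw [h4]
    apply IsCoprime.add_mul_left_right
    exact (hab.symm.pow_right).neg_right
  exact (IsCoprime.pow_right_iff (Nat.pos_of_ne_zero hp)).1 h3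

/-- Sophie Germain's theorem (in Legendre's generalised form). -/
theorem caseI {p q : ℕ} (hp : p.Prime) (hodd : Odd p) (hq : q.Prime)
    (h1 : ∀ x y z : ZMod q, x ^ p + y ^ p + z ^ p = 0 → x = 0 ∨ y = 0 ∨ z = 0)
    (h2 : ∀ x : ZMod q, x ^ p ≠ (p : ZMod q))
    {a b c : ℤ} (hab : IsCoprime a b) (h : a ^ p + b ^ p + c ^ p = 0) :
    (p : ℤ) ∣ a * b * c := by
  by_contra hn
  have hpa : ¬ (p : ℤ) ∣ a := fun hd => hn ((hd.mul_right b).mul_right c)
  have hpb : ¬ (p : ℤ) ∣ b := fun hd => hn ((hd.mul_left a).mul_right c)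
  have hpc : ¬ (p : ℤ) ∣ c := fun hd => hn (hd.mul_left (a * b))
  have hbc : IsCoprime b c := sg_coprime_third hp.ne_zero hab h
  have hca : IsCoprime c a := sg_coprime_third hp.ne_zero hbc (by linarith)
  have hq0 : (a : ZMod q) ^ p + (b : ZMod q) ^ p + (c : ZMod q) ^ p = 0 := by
    exact_mod_cast congrArg (Int.cast : ℤ → ZMod q) h
  rcases h1 _ _ _ hq0 with h0 | h0 | h0
  · exact sg_core hp hodd hq h1 h2 hab hbc hca h hpa hpb hpc h0
  · exact sg_core hp hodd hq h1 h2 hbc hca hab (by linarith) hpb hpc hpa h0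
  · exact sg_core hp hodd hq h1 h2 hca hab hbc (by linarith) hpc hpa hpb h0


lemma sg_pow_five : ∀ x : ZMod 11, x = 0 ∨ x ^ 5 = 1 ∨ x ^ 5 = 10 := by decide

lemma sg_h1_five : ∀ x y z : ZMod 11, x ^ 5 + y ^ 5 + z ^ 5 = 0 → x = 0 ∨ y = 0 ∨ z = 0 := by
  intro x y z h
  rcases sg_pow_five x with hx | hx
  · exact Or.inl hx
  rcases sg_pow_five y with hy | hy
  · exact Or.inr (Or.inl hy)
  rcases sg_pow_five z with hz | hz
  · exact Or.inr (Or.inr hz)
  exfalso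
  rcases hx with hx | hx <;> rcases hy with hy | hy <;>
    rcases hz with hz | hz <;> rw [hx, hy, hz] at h <;> revert h <;> decide

lemma sg_h2_five : ∀ x : ZMod 11, x ^ 5 ≠ ((5 : ℕ) : ZMod 11) := by decide

/-- First case of Fermat's Last Theorem for exponent 5. -/
theorem caseI_five {a b c : ℤ} (hab : IsCoprime a b) (h : a ^ 5 + b ^ 5 + c ^ 5 = 0) :
    (5 : ℤ) ∣ a * b * c :=
  caseI (p := 5) (q := 11) (by norm_num) (by decide) (by norm_num) sg_h1_five sg_h2_five hab h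

lemma sg_pow_seven : ∀ x : ZMod 29, x = 0 ∨ x ^ 7 = 1 ∨ x ^ 7 = 28 ∨ x ^ 7 = 12 ∨ x ^ 7 = 17 := by decide

lemma sg_h1_seven : ∀ x y z : ZMod 29, x ^ 7 + y ^ 7 + z ^ 7 = 0 → x = 0 ∨ y = 0 ∨ z = 0 := by
  intro x y z h
  rcases sg_pow_seven x with hx | hx
  · exact Or.inl hx
  rcases sg_pow_seven y with hy | hy
  · exact Or.inr (Or.inl hy)
  rcases sg_pow_seven z with hz | hz
  · exact Or.inr (Or.inr hz)
  exfalso
  rcases hx with hx | hx | hx | hx <;> rcases hy with hy | hy | hy | hy <;>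
    rcases hz with hz | hz | hz | hz <;> rw [hx, hy, hz] at h <;> revert h <;> decide

lemma sg_h2_seven : ∀ x : ZMod 29, x ^ 7 ≠ ((7 : ℕ) : ZMod 29) := by decide

/-- First case of Fermat's Last Theorem for exponent 7. -/
theorem caseI_seven {a b c : ℤ} (hab : IsCoprime a b) (h : a ^ 7 + b ^ 7 + c ^ 7 = 0) :
    (7 : ℤ) ∣ a * b * c :=
  caseI (p := 7) (q := 29) (by norm_num) (by decide) (by norm_num) sg_h1_seven sg_h2_seven hab h

lemma sg_pow_eleven : ∀ x : ZMod 23, x = 0 ∨ x ^ 11 = 1 ∨ x ^ 11 = 22 := by decide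

lemma sg_h1_eleven : ∀ x y z : ZMod 23, x ^ 11 + y ^ 11 + z ^ 11 = 0 → x = 0 ∨ y = 0 ∨ z = 0 := by
  intro x y z h
  rcases sg_pow_eleven x with hx | hx
  · exact Or.inl hx
  rcases sg_pow_eleven y with hy | hy
  · exact Or.inr (Or.inl hy)
  rcases sg_pow_eleven z with hz | hz
  · exact Or.inr (Or.inr hz)
  exfalso
  rcases hx with hx | hx <;> rcases hy with hy | hy <;>
    rcases hz with hz | hz <;> rw [hx, hy, hz] at h <;> revert h <;> decide

lemma sg_h2_eleven : ∀ x : ZMod 23, x ^ 11 ≠ ((11 : ℕ) : ZMod 23) := by decide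

/-- First case of Fermat's Last Theorem for exponent 11. -/
theorem caseI_eleven {a b c : ℤ} (hab : IsCoprime a b) (h : a ^ 11 + b ^ 11 + c ^ 11 = 0) :
    (11 : ℤ) ∣ a * b * c :=
  caseI (p := 11) (q := 23) (by norm_num) (by decide) (by norm_num) sg_h1_eleven sg_h2_eleven hab h

lemma sg_pow_thirteen : ∀ x : ZMod 53, x = 0 ∨ x ^ 13 = 1 ∨ x ^ 13 = 52 ∨ x ^ 13 = 23 ∨ x ^ 13 = 30 := by decide

lemma sg_h1_thirteen : ∀ x y z : ZMod 53, x ^ 13 + y ^ 13 + z ^ 13 = 0 → x = 0 ∨ y = 0 ∨ z = 0 := by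
  intro x y z h
  rcases sg_pow_thirteen x with hx | hx
  · exact Or.inl hx
  rcases sg_pow_thirteen y with hy | hy
  · exact Or.inr (Or.inl hy)
  rcases sg_pow_thirteen z with hz | hz
  · exact Or.inr (Or.inr hz)
  exfalso
  rcases hx with hx | hx | hx | hx <;> rcases hy with hy | hy | hy | hy <;>
    rcases hz with hz | hz | hz | hz <;> rw [hx, hy, hz] at h <;> revert h <;> decide

lemma sg_h2_thirteen : ∀ x : ZMod 53, x ^ 13 ≠ ((13 : ℕ) : ZMod 53) := by decide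

/-- First case of Fermat's Last Theorem for exponent 13. -/
theorem caseI_thirteen {a b c : ℤ} (hab : IsCoprime a b) (h : a ^ 13 + b ^ 13 + c ^ 13 = 0) :
    (13 : ℤ) ∣ a * b * c :=
  caseI (p := 13) (q := 53) (by norm_num) (by decide) (by norm_num) sg_h1_thirteen sg_h2_thirteen hab h

end Fermat.Agent.S11
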