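import Fermat.Agent.S11.Defs

open NumberField Polynomial Finset

set_option linter.unusedSectionVars false

namespace Fermat.Agent.S11

/-- The abstract setting for Kummer's descent. -/
structure Setting (R : Type*) [CommRing R] (p : ℕ) (ζ : R) : Prop where
  prim : IsPrimitiveRoot ζ p
  prime : Prime (ζ - 1)
  assoc : Associated ((ζ - 1) ^ (p - 1)) (p : R)
  residue : ∀ x : R, ∃ n : ℤ, ζ - 1 ∣ x - n
  dvd_int : ∀ n : ℤ, ζ - 1 ∣ (n : R) ↔ (p : ℤ) ∣ n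
  kummer : ∀ u : Rˣ, (∃ n : ℤ, (p : R) ∣ (u : R) - n) → ∃ v : Rˣ, u = v ^ p

namespace Setting

variable {R : Type*} [CommRing R] [IsDomain R] {p : ℕ} {ζ : R}

lemma one_mem (hp : p.Prime) : (1 : R) ∈ nthRootsFinset p (1 : R) := by
  rw [mem_nthRootsFinset hp.pos]; simp

lemma zeta_mem (S : Setting R p ζ) (hp : p.Prime) : ζ ∈ nthRootsFinset p (1 : R) := by
  rw [mem_nthRootsFinset hp.pos]; exact S.prim.pow_eq_one

lemma zeta_pow_mem (S : Setting R p ζ) (hp : p.Prime) (k : ℕ) :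
    ζ ^ k ∈ nthRootsFinset p (1 : R) := by
  rw [mem_nthRootsFinset hp.pos, ← pow_mul, mul_comm, pow_mul, S.prim.pow_eq_one, one_pow]

/-- `λ ^ p ∣ a ^ p - b ^ p` when `λ ∣ a - b`. -/
lemma pow_dvd_pow_sub_pow (S : Setting R p ζ) (hp : p.Prime) {a b : R} (h : ζ - 1 ∣ a - b) :
    (ζ - 1) ^ p ∣ a ^ p - b ^ p := by
  rw [S.prim.pow_sub_pow_eq_prod_sub_mul a b hp.pos]
  have hcard : (nthRootsFinset p (1 : R)).card = p := S.prim.card_nthRootsFinset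
  calc (ζ - 1) ^ p = ∏ _μ ∈ nthRootsFinset p (1 : R), (ζ - 1) := by
        rw [prod_const, hcard]
    _ ∣ _ := by
        refine prod_dvd_prod_of_dvd _ _ fun μ hμ => ?_
        have h1 : ζ - 1 ∣ 1 - μ := S.prim.sub_one_dvd_sub hp (one_mem hp) hμ
        have : a - μ * b = (a - b) + (1 - μ) * b := by ring
        rw [this]
        exact dvd_add h (h1.mul_right b)

lemma p_dvd_pow (S : Setting R p ζ) {k : ℕ} (hk : p - 1 ≤ k) : (p : R) ∣ (ζ - 1) ^ k :=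
  S.assoc.symm.dvd.trans (pow_dvd_pow _ hk)

lemma p_dvd_pow_sub_pow (S : Setting R p ζ) (hp : p.Prime) {a b : R} (h : ζ - 1 ∣ a - b) :
    (p : R) ∣ a ^ p - b ^ p :=
  (S.p_dvd_pow (Nat.sub_le p 1)).trans (S.pow_dvd_pow_sub_pow hp h)

lemma sq_dvd_zeta_pow_sub (ζ : R) (k : ℕ) : (ζ - 1) ^ 2 ∣ ζ ^ k - (1 + k * (ζ - 1)) := by
  induction k with
  | zero => simp
  | succ k ih =>
    have : ζ ^ (k + 1) - (1 + ((k + 1 : ℕ) : R) * (ζ - 1)) =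
        ζ * (ζ ^ k - (1 + k * (ζ - 1))) + k * (ζ - 1) ^ 2 := by
      push_cast; ring
    rw [this]
    exact dvd_add (ih.mul_left _) (dvd_mul_left _ _)

lemma exists_nat_dvd (hp : p.Prime) {a₀ : ℤ} (a₁ : ℤ) (h : ¬ (p : ℤ) ∣ a₀) :
    ∃ k : ℕ, (p : ℤ) ∣ a₁ + k * a₀ := by
  have : Fact p.Prime := ⟨hp⟩
  have h0 : (a₀ : ZMod p) ≠ 0 := by
    rwa [Ne, ZMod.intCast_zmod_eq_zero_iff_dvd]
  refine ⟨((-(a₁ : ZMod p)) * (a₀ : ZMod p)⁻¹).val, ?_⟩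
  rw [← ZMod.intCast_zmod_eq_zero_iff_dvd]
  push_cast
  rw [ZMod.natCast_zmod_val]
  field_simp
  ring

lemma exists_normalize (S : Setting R p ζ) (hp : p.Prime) {x : R} (hx : ¬ ζ - 1 ∣ x) :
    ∃ k : ℕ, ∃ n : ℤ, (ζ - 1) ^ 2 ∣ ζ ^ k * x - n := by
  obtain ⟨a₀, x₁, hx₁⟩ := S.residue x
  obtain ⟨a₁, x₂, hx₂⟩ := S.residue x₁
  have ha₀ : ¬ (p : ℤ) ∣ a₀ := by
    intro h
    apply hx
    have := (S.dvd_int a₀).2 h
    have h2 : x = (x - a₀) + a₀ := by ring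
    rw [h2, hx₁]
    exact dvd_add (dvd_mul_right _ _) this
  obtain ⟨k, hk⟩ := exists_nat_dvd hp a₁ ha₀
  obtain ⟨w, hw⟩ := (S.dvd_int _).2 hk
  obtain ⟨v, hv⟩ := sq_dvd_zeta_pow_sub ζ k
  refine ⟨k, a₀, ⟨v * x + w + x₂ + k * a₁ + k * (ζ - 1) * x₂, ?_⟩⟩
  push_cast at hw
  have e1 : x = a₀ + (ζ - 1) * x₁ := by rw [← hx₁]; ring
  have e2 : x₁ = a₁ + (ζ - 1) * x₂ := by rw [← hx₂]; ring
  have e3 : ζ ^ k = (1 + k * (ζ - 1)) + (ζ - 1) ^ 2 * v := by rw [← hv]; ring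
  rw [e3]
  have : (1 + (k : R) * (ζ - 1)) * x - a₀ =
      (ζ - 1) * (a₁ + k * a₀) + (ζ - 1) ^ 2 * (x₂ + k * a₁ + k * (ζ - 1) * x₂) := by
    rw [e1, e2]; ring
  calc (1 + (k : R) * (ζ - 1) + (ζ - 1) ^ 2 * v) * x - a₀
      = ((1 + (k : R) * (ζ - 1)) * x - a₀) + (ζ - 1) ^ 2 * v * x := by ring
    _ = _ := by rw [this, hw]; ring


lemma l_ne_zero (S : Setting R p ζ) : ζ - 1 ≠ 0 := S.prime.ne_zero

lemma zeta_isUnit (S : Setting R p ζ) (hp : p.Prime) : IsUnit ζ := S.prim.isUnit hp.ne_zero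

lemma one_add_zeta_isUnit (S : Setting R p ζ) (hp : p.Prime) (hp3 : 3 ≤ p) : IsUnit (1 + ζ) := by
  have h2 : Nat.Coprime 2 p := by
    rw [Nat.coprime_comm, Nat.Prime.coprime_iff_not_dvd hp]
    intro h
    have := Nat.le_of_dvd (by norm_num) h
    omega
  have := S.prim.geom_sum_isUnit hp.two_le h2
  simpa [Finset.sum_range_succ] using this

/-- The generalized Fermat equation. -/
def IsSol (ζ : R) (p m : ℕ) (x y z : R) (ε : Rˣ) : Prop :=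
  IsCoprime x y ∧ ¬ ζ - 1 ∣ z ∧ x ^ p + y ^ p = ε * ((ζ - 1) ^ m * z) ^ p

lemma IsSol.l_dvd {m : ℕ} {x y z : R} {ε : Rˣ} (h : IsSol ζ p m x y z ε) (hp : p.Prime)
    (hm : 1 ≤ m) : ζ - 1 ∣ x ^ p + y ^ p := by
  rw [h.2.2]
  apply Dvd.dvd.mul_left
  apply dvd_pow _ hp.ne_zero
  apply Dvd.dvd.mul_right
  exact dvd_pow_self _ (by omega)

lemma IsSol.not_dvd_left (S : Setting R p ζ) {m : ℕ} {x y z : R} {ε : Rˣ}
    (h : IsSol ζ p m x y z ε) (hp : p.Prime) (hm : 1 ≤ m) : ¬ ζ - 1 ∣ x := by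
  intro hx
  have h1 := h.l_dvd hp hm
  have h2 : ζ - 1 ∣ y ^ p := (dvd_add_right (dvd_pow hx hp.ne_zero)).1 h1
  have h3 := S.prime.dvd_of_dvd_pow h2
  exact S.prime.not_isUnit (h.1.isUnit_of_dvd' hx h3)

lemma IsSol.not_dvd_right (S : Setting R p ζ) {m : ℕ} {x y z : R} {ε : Rˣ}
    (h : IsSol ζ p m x y z ε) (hp : p.Prime) (hm : 1 ≤ m) : ¬ ζ - 1 ∣ y := by
  intro hy
  have h1 := h.l_dvd hp hm
  have h2 : ζ - 1 ∣ x ^ p := (dvd_add_left (dvd_pow hy hp.ne_zero)).1 h1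
  have h3 := S.prime.dvd_of_dvd_pow h2
  exact S.prime.not_isUnit (h.1.isUnit_of_dvd' h3 hy)

lemma IsSol.l_dvd_add (S : Setting R p ζ) {m : ℕ} {x y z : R} {ε : Rˣ}
    (h : IsSol ζ p m x y z ε) (hp : p.Prime) (hp3 : 3 ≤ p) (hm : 1 ≤ m) : ζ - 1 ∣ x + y := by
  have h1 := h.l_dvd hp hm
  have hodd : Odd p := hp.odd_of_ne_two (by omega)
  rw [S.prim.pow_add_pow_eq_prod_add_mul x y hodd] at h1
  obtain ⟨μ, hμ, h2⟩ := S.prime.exists_mem_finset_dvd h1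
  have h3 : ζ - 1 ∣ 1 - μ := S.prim.sub_one_dvd_sub hp (one_mem hp) hμ
  have : x + y = (x + μ * y) + (1 - μ) * y := by ring
  rw [this]
  exact dvd_add h2 (h3.mul_right y)

/-- Normalisation: we may assume `λ ^ 2 ∣ x + y`. -/
lemma IsSol.exists_sq_dvd (S : Setting R p ζ) {m : ℕ} {x y z : R} {ε : Rˣ}
    (h : IsSol ζ p m x y z ε) (hp : p.Prime) (hp3 : 3 ≤ p) (hm : 1 ≤ m) :
    ∃ x' y' : R, IsSol ζ p m x' y' z ε ∧ (ζ - 1) ^ 2 ∣ x' + y' := by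
  obtain ⟨k, a, ha⟩ := S.exists_normalize hp (h.not_dvd_left S hp hm)
  obtain ⟨k', b, hb⟩ := S.exists_normalize hp (h.not_dvd_right S hp hm)
  have hpow : ∀ k : ℕ, ∀ w : R, (ζ ^ k * w) ^ p = w ^ p := by
    intro k w
    rw [mul_pow, ← pow_mul, mul_comm k p, pow_mul, S.prim.pow_eq_one, one_pow, one_mul]
  have hsol : IsSol ζ p m (ζ ^ k * x) (ζ ^ k' * y) z ε := by
    refine ⟨?_, h.2.1, ?_⟩
    · rw [isCoprime_mul_unit_left_left ((S.zeta_isUnit hp).pow k),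
        isCoprime_mul_unit_left_right ((S.zeta_isUnit hp).pow k')]
      exact h.1
    · rw [hpow, hpow]; exact h.2.2
  refine ⟨_, _, hsol, ?_⟩
  have h1 := hsol.l_dvd_add S hp hp3 hm
  have hl2 : ζ - 1 ∣ (ζ - 1) ^ 2 := dvd_pow_self _ (by norm_num)
  have h2 : ζ - 1 ∣ ((a + b : ℤ) : R) := by
    have : ((a + b : ℤ) : R) = (ζ ^ k * x + ζ ^ k' * y) - (ζ ^ k * x - a) - (ζ ^ k' * y - b) := by
      push_cast; ring
    rw [this]
    exact dvd_sub (dvd_sub h1 (hl2.trans ha)) (hl2.trans hb)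
  have h3 : (p : ℤ) ∣ a + b := (S.dvd_int _).1 h2
  have h4 : (p : R) ∣ ((a + b : ℤ) : R) := by
    obtain ⟨c, hc⟩ := h3
    exact ⟨c, by rw [hc]; push_cast; ring⟩
  have h5 : (ζ - 1) ^ 2 ∣ ((a + b : ℤ) : R) :=
    ((pow_dvd_pow _ (by omega)).trans S.assoc.dvd).trans h4
  have : ζ ^ k * x + ζ ^ k' * y = (ζ ^ k * x - a) + (ζ ^ k' * y - b) + ((a + b : ℤ) : R) := by
    push_cast; ring
  rw [this]
  exact dvd_add (dvd_add ha hb) h5


/-- every `p`-th power is congruent to an integer mod `p`; the integer is prime to `p` if the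
element is prime to `λ`. -/
lemma exists_int_pow (S : Setting R p ζ) (hp : p.Prime) (w : R) :
    ∃ n : ℤ, (p : R) ∣ w ^ p - n ∧ (¬ ζ - 1 ∣ w → ¬ (p : ℤ) ∣ n) := by
  obtain ⟨n, hn⟩ := S.residue w
  refine ⟨n ^ p, ?_, ?_⟩
  · push_cast
    exact S.p_dvd_pow_sub_pow hp hn
  · intro hw hpn
    apply hw
    have h1 : (p : ℤ) ∣ n := (Nat.prime_iff_prime_int.1 hp).dvd_of_dvd_pow hpn
    have h2 := (S.dvd_int n).2 h1
    have : w = (w - n) + n := by ring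
    rw [this]
    exact dvd_add hn h2

/-- if `a + η b ≡ 0 mod p` with `a, b` congruent to integers, `b` prime to `p`, then `η` is
congruent to an integer mod `p`. -/
lemma exists_int_of_add_mul (hp : p.Prime) {a b η : R} {n₁ n₂ : ℤ}
    (h1 : (p : R) ∣ a - n₁) (h2 : (p : R) ∣ b - n₂) (hn₂ : ¬ (p : ℤ) ∣ n₂)
    (h : (p : R) ∣ a + η * b) : ∃ n : ℤ, (p : R) ∣ η - n := by
  have hcop : IsCoprime n₂ (p : ℤ) := by
    rw [isCoprime_comm]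
    exact (Nat.prime_iff_prime_int.1 hp).coprime_iff_not_dvd.2 hn₂
  obtain ⟨u, v, huv⟩ := hcop
  have huv' : (u : R) * n₂ + v * p = 1 := by exact_mod_cast congrArg (Int.cast : ℤ → R) huv
  refine ⟨-n₁ * u, ?_⟩
  obtain ⟨c1, hc1⟩ := h1
  obtain ⟨c2, hc2⟩ := h2
  obtain ⟨c3, hc3⟩ := h
  refine ⟨η * v + u * c3 - u * c1 - η * u * c2, ?_⟩
  have e1 : a = n₁ + p * c1 := by rw [← hc1]; ring
  have e2 : b = n₂ + p * c2 := by rw [← hc2]; ring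
  rw [e1, e2] at hc3
  push_cast
  linear_combination (-η) * huv' + (u : R) * hc3


lemma descent_aux [IsPrincipalIdealRing R] (S : Setting R p ζ) (hp : p.Prime) (hp3 : 3 ≤ p)
    {m : ℕ} (hm : 1 ≤ m) {x y z : R} {ε : Rˣ} (h : IsSol ζ p m x y z ε)
    (hxy : (ζ - 1) ^ 2 ∣ x + y) :
    2 ≤ m ∧ ∃ x' y' z' : R, ∃ ε' : Rˣ, IsSol ζ p (m - 1) x' y' z' ε' := by
  classical
  have hodd : Odd p := hp.odd_of_ne_two (by omega)
  have hl0 : ζ - 1 ≠ 0 := S.l_ne_zero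
  have hy : ¬ ζ - 1 ∣ y := h.not_dvd_right S hp hm
  obtain ⟨hcop, hz, heq⟩ := h
  set T := nthRootsFinset p (1 : R) with hT
  have h1T : (1 : R) ∈ T := one_mem hp
  have hcard : T.card = p := S.prim.card_nthRootsFinset
  have hl2 : ζ - 1 ∣ (ζ - 1) ^ 2 := dvd_pow_self _ (by norm_num)
  have hdiv : ∀ μ ∈ T, ζ - 1 ∣ x + μ * y := by
    intro μ hμ
    have h3 : ζ - 1 ∣ μ - 1 := S.prim.sub_one_dvd_sub hp hμ h1T
    have : x + μ * y = (x + y) + (μ - 1) * y := by ring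
    rw [this]
    exact dvd_add (hl2.trans hxy) (h3.mul_right y)
  choose! f hf using hdiv
  -- product formula
  have hprod : ∏ μ ∈ T, f μ = ε * ((ζ - 1) ^ (m - 1) * z) ^ p := by
    have h1 : (ζ - 1) ^ p * ∏ μ ∈ T, f μ = (ζ - 1) ^ p * (ε * ((ζ - 1) ^ (m - 1) * z) ^ p) := by
      calc (ζ - 1) ^ p * ∏ μ ∈ T, f μ = ∏ μ ∈ T, ((ζ - 1) * f μ) := by
            rw [prod_mul_distrib, prod_const, hcard]
        _ = ∏ μ ∈ T, (x + μ * y) := prod_congr rfl fun μ hμ => (hf μ hμ).symm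
        _ = x ^ p + y ^ p := (S.prim.pow_add_pow_eq_prod_add_mul x y hodd).symm
        _ = ε * ((ζ - 1) ^ m * z) ^ p := heq
        _ = _ := by
            obtain ⟨k, rfl⟩ : ∃ k, m = k + 1 := ⟨m - 1, by omega⟩
            simp only [Nat.add_sub_cancel]
            have : (ζ - 1) ^ (k + 1) * z = (ζ - 1) * ((ζ - 1) ^ k * z) := by ring
            rw [this, mul_pow (ζ - 1)]
            ring
    exact mul_left_cancel₀ (pow_ne_zero _ hl0) h1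
  -- pairwise coprimality
  have hcopf : ∀ μ ∈ T, ∀ ν ∈ T, μ ≠ ν → IsCoprime (f μ) (f ν) := by
    intro μ hμ ν hν hne
    obtain ⟨u, hu⟩ := S.prim.nthRootsFinset_pairwise_associated_sub_one_sub_of_prime hp hμ hν hne
    have e1 : f μ - f ν = u * y := by
      apply mul_left_cancel₀ hl0
      rw [mul_sub, ← hf μ hμ, ← hf ν hν]
      linear_combination (-y) * hu
    have e2 : ν * f μ - μ * f ν = - u * x := by
      apply mul_left_cancel₀ hl0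
      have : (ζ - 1) * (ν * f μ - μ * f ν) = ν * ((ζ - 1) * f μ) - μ * ((ζ - 1) * f ν) := by ring
      rw [this, ← hf μ hμ, ← hf ν hν]
      linear_combination x * hu
    obtain ⟨r, s, hrs⟩ := hcop
    refine ⟨-r * ↑u⁻¹ * ν + s * ↑u⁻¹, r * ↑u⁻¹ * μ - s * ↑u⁻¹, ?_⟩
    have hu1 : (↑u⁻¹ : R) * u = 1 := Units.inv_mul u
    linear_combination (-r * ↑u⁻¹) * e2 + (s * ↑u⁻¹) * e1 + (r * x + s * y) * hu1 + hrs
  have hcopF : ∀ μ ∈ T, IsCoprime (f μ) (∏ ν ∈ T.erase μ, f ν) := by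
    intro μ hμ
    refine IsCoprime.prod_right fun ν hν => ?_
    exact hcopf μ hμ ν (mem_of_mem_erase hν) (ne_of_mem_erase hν).symm
  have hndvd : ∀ μ ∈ T, μ ≠ 1 → ¬ ζ - 1 ∣ f μ := by
    intro μ hμ hne hd
    obtain ⟨u, hu⟩ := S.prim.nthRootsFinset_pairwise_associated_sub_one_sub_of_prime hp hμ h1T hne
    obtain ⟨w, hw⟩ := hxy
    have e1 : f μ = (ζ - 1) * w + u * y := by
      apply mul_left_cancel₀ hl0
      rw [← hf μ hμ]
      linear_combination hw - y * hu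
    rw [e1, dvd_add_right (dvd_mul_right _ _)] at hd
    exact hy ((Units.dvd_mul_left).1 (by rwa [mul_comm] at hd))
  have hdvd1 : ζ - 1 ∣ f 1 := by
    obtain ⟨w, hw⟩ := hxy
    refine ⟨w, ?_⟩
    apply mul_left_cancel₀ hl0
    rw [← hf 1 h1T]
    linear_combination hw
  -- the cofactor of `f 1`
  set F := ∏ ν ∈ T.erase 1, f ν with hF
  have hFndvd : ¬ ζ - 1 ∣ F := by
    intro hd
    obtain ⟨ν, hν, h2⟩ := S.prime.exists_mem_finset_dvd hd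
    exact hndvd ν (mem_of_mem_erase hν) (ne_of_mem_erase hν) h2
  have hf1F : f 1 * F = ε * ((ζ - 1) ^ (m - 1) * z) ^ p := by
    rw [← hprod, hF, mul_prod_erase T f h1T]
  have hunit_dvd : ∀ w : R, ζ - 1 ∣ ε * w ^ p → ζ - 1 ∣ w := by
    intro w hw
    exact S.prime.dvd_of_dvd_pow ((Units.dvd_mul_left).1 (by rwa [mul_comm] at hw))
  have hm2 : 2 ≤ m := by
    by_contra hlt
    have hm1 : m = 1 := by omega
    subst hm1
    simp only [Nat.sub_self, pow_zero, one_mul] at hf1F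
    exact hz (hunit_dvd z (hf1F ▸ hdvd1.mul_right F))
  have hpow_dvd : (ζ - 1) ^ ((m - 1) * p) ∣ f 1 := by
    apply S.prime.pow_dvd_of_dvd_mul_right _ hFndvd
    rw [hf1F, mul_pow, ← pow_mul]
    exact ⟨ε * z ^ p, by ring⟩
  obtain ⟨g, hg⟩ := hpow_dvd
  have hgF : g * F = ε * z ^ p := by
    apply mul_left_cancel₀ (pow_ne_zero ((m - 1) * p) hl0)
    rw [← mul_assoc, ← hg, hf1F, mul_pow, ← pow_mul]
    ring
  have hgndvd : ¬ ζ - 1 ∣ g := fun hd => hz (hunit_dvd z (hgF ▸ hd.mul_right F))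
  have hcopg : IsCoprime g F :=
    (hcopF 1 h1T).of_isCoprime_of_dvd_left ⟨_, by rw [hg, mul_comm]⟩
  obtain ⟨ρ₀, ε₀, hρ₀⟩ : ∃ d, Associated (d ^ p) g :=
    exists_associated_pow_of_associated_pow_mul hcopg (c := z) ⟨ε, by rw [hgF, mul_comm]⟩
  have hζT : ζ ∈ T := S.zeta_mem hp
  have hζ'T : ζ ^ (p - 1) ∈ T := S.zeta_pow_mem hp _
  have hζ'1 : ζ ^ (p - 1) ≠ 1 := S.prim.pow_ne_one_of_pos_of_lt (by omega) (by omega)
  have hzz : ζ * ζ ^ (p - 1) = 1 := by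
    rw [← pow_succ', Nat.sub_add_cancel (by omega), S.prim.pow_eq_one]
  have hζζ' : ζ ≠ ζ ^ (p - 1) := by
    intro he
    have h2 : ζ ^ 2 ≠ 1 := S.prim.pow_ne_one_of_pos_of_lt (by omega) (by omega)
    apply h2
    rw [pow_two]
    nth_rewrite 2 [he]
    exact hzz
  have hext : ∀ μ ∈ T, ∃ d, Associated (d ^ p) (f μ) := by
    intro μ hμ
    refine exists_associated_pow_of_associated_pow_mul (hcopF μ hμ)
      (c := (ζ - 1) ^ (m - 1) * z) ⟨ε, ?_⟩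
    rw [mul_prod_erase T f hμ, hprod, mul_comm]
  obtain ⟨ρ₁, ε₁, hρ₁⟩ := hext ζ hζT
  obtain ⟨ρ₂, ε₂, hρ₂⟩ := hext (ζ ^ (p - 1)) hζ'T
  have hrel : f ζ + ζ * f (ζ ^ (p - 1)) = (1 + ζ) * f 1 := by
    apply mul_left_cancel₀ hl0
    have e1 : (ζ - 1) * (f ζ + ζ * f (ζ ^ (p - 1))) =
        (ζ - 1) * f ζ + ζ * ((ζ - 1) * f (ζ ^ (p - 1))) := by ring
    have e2 : (ζ - 1) * ((1 + ζ) * f 1) = (1 + ζ) * ((ζ - 1) * f 1) := by ring
    rw [e1, e2, ← hf ζ hζT, ← hf _ hζ'T, ← hf 1 h1T]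
    linear_combination y * hzz
  obtain ⟨uζ, huζ⟩ := S.zeta_isUnit hp
  obtain ⟨u1, hu1⟩ := S.one_add_zeta_isUnit hp hp3
  have key : ρ₁ ^ p + ((uζ * ε₂ * ε₁⁻¹ : Rˣ) : R) * ρ₂ ^ p =
      ((u1 * ε₀ * ε₁⁻¹ : Rˣ) : R) * ((ζ - 1) ^ (m - 1) * ρ₀) ^ p := by
    have hinv : (ε₁ : R) * ↑ε₁⁻¹ = 1 := Units.mul_inv ε₁
    rw [← hρ₁, ← hρ₂, hg, ← hρ₀] at hrel
    push_cast
    rw [mul_pow, ← pow_mul, huζ, hu1]
    linear_combination (↑ε₁⁻¹ : R) * hrel - ρ₁ ^ p * hinv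
  have hρ₂ndvd : ¬ ζ - 1 ∣ ρ₂ := by
    intro hd
    apply hndvd _ hζ'T hζ'1
    rw [← hρ₂]
    exact (dvd_pow hd hp.ne_zero).mul_right _
  have hρ₀ndvd : ¬ ζ - 1 ∣ ρ₀ := by
    intro hd
    apply hgndvd
    rw [← hρ₀]
    exact (dvd_pow hd hp.ne_zero).mul_right _
  obtain ⟨n₁, hn₁, -⟩ := S.exists_int_pow hp ρ₁
  obtain ⟨n₂, hn₂, hn₂'⟩ := S.exists_int_pow hp ρ₂
  have hpdvd : (p : R) ∣ ρ₁ ^ p + ((uζ * ε₂ * ε₁⁻¹ : Rˣ) : R) * ρ₂ ^ p := by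
    rw [key, mul_pow, ← pow_mul]
    apply Dvd.dvd.mul_left
    apply Dvd.dvd.mul_right
    apply S.p_dvd_pow
    have h1m : 1 ≤ m - 1 := by omega
    calc p - 1 ≤ p := Nat.sub_le _ _
      _ = 1 * p := (one_mul p).symm
      _ ≤ (m - 1) * p := Nat.mul_le_mul_right p h1m
  obtain ⟨v, hv⟩ := S.kummer _ (exists_int_of_add_mul hp hn₁ hn₂ (hn₂' hρ₂ndvd) hpdvd)
  refine ⟨hm2, ρ₁, v * ρ₂, ρ₀, u1 * ε₀ * ε₁⁻¹, ?_, hρ₀ndvd, ?_⟩
  · have h1 := hcopf ζ hζT _ hζ'T hζζ'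
    rw [← hρ₁, ← hρ₂, isCoprime_mul_unit_right_left ε₁.isUnit,
      isCoprime_mul_unit_right_right ε₂.isUnit, IsCoprime.pow_iff hp.pos hp.pos] at h1
    rwa [isCoprime_mul_unit_left_right v.isUnit]
  · rw [← key, hv, mul_pow]
    push_cast
    ring


theorem no_sol [IsPrincipalIdealRing R] (S : Setting R p ζ) (hp : p.Prime) (hp3 : 3 ≤ p) :
    ∀ m : ℕ, 1 ≤ m → ∀ (x y z : R) (ε : Rˣ), ¬ IsSol ζ p m x y z ε := by
  intro m
  induction m with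
  | zero => intro h; omega
  | succ k ih =>
    intro _ x y z ε h
    obtain ⟨x', y', h', hxy⟩ := h.exists_sq_dvd S hp hp3 (by omega)
    obtain ⟨h2, x'', y'', z'', ε'', h''⟩ := S.descent_aux hp hp3 (by omega) h' hxy
    exact ih (by omega) x'' y'' z'' ε'' (by simpa using h'')

end Setting

section cyclo

variable {p : ℕ} [Fact p.Prime] {K : Type*} [Field K] [NumberField K]
  [IsCyclotomicExtension {p} ℚ K] {ζ : K}

lemma exists_int_sub_dvd (hζ : IsPrimitiveRoot ζ p) (x : 𝓞 K) :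
    ∃ n : ℤ, hζ.toInteger - 1 ∣ x - n := by
  obtain ⟨f, hf⟩ := (hζ.integralPowerBasis).exists_eq_aeval' x
  rw [hζ.integralPowerBasis_gen] at hf
  refine ⟨f.eval 1, ?_⟩
  have h1 := Polynomial.sub_dvd_eval_sub hζ.toInteger 1 (f.map (algebraMap ℤ (𝓞 K)))
  rw [eval_map_algebraMap, ← hf] at h1
  have h2 : eval 1 (f.map (algebraMap ℤ (𝓞 K))) = ((f.eval 1 : ℤ) : 𝓞 K) := by
    rw [eval_map, eval₂_at_one]
    rfl
  rwa [h2] at h1

theorem setting_of_cyclotomic (hζ : IsPrimitiveRoot ζ p) (KL : KummerLemma p K) :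
    Setting (𝓞 K) p hζ.toInteger where
  prim := hζ.toInteger_isPrimitiveRoot
  prime := hζ.zeta_sub_one_prime'
  assoc := IsCyclotomicExtension.Rat.associated_zeta_sub_one_pow_prime p hζ
  residue := exists_int_sub_dvd hζ
  dvd_int := fun _ => IsCyclotomicExtension.Rat.zeta_sub_one_dvd_intCast_iff' p hζ
  kummer := KL

end cyclo

theorem caseII {p : ℕ} [Fact p.Prime] (hp : 3 ≤ p) (K : Type*) [Field K] [NumberField K]
    [IsCyclotomicExtension {p} ℚ K] [IsPrincipalIdealRing (𝓞 K)] (KL : KummerLemma p K)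
    {a b c : ℤ} (hab : IsCoprime a b) (hpc : (p : ℤ) ∣ c) (hc : c ≠ 0) :
    a ^ p + b ^ p ≠ c ^ p := by
  intro heq
  have hpp : p.Prime := Fact.out
  have hζ := IsCyclotomicExtension.zeta_spec p ℚ K
  have S := setting_of_cyclotomic hζ KL
  have hfin : FiniteMultiplicity (p : ℤ) c := by
    rw [Int.finiteMultiplicity_iff]
    refine ⟨?_, hc⟩
    simpa using hpp.ne_one
  obtain ⟨c', hc', hndvd⟩ := hfin.exists_eq_pow_mul_and_not_dvd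
  set k := multiplicity (p : ℤ) c with hk
  have hk1 : 1 ≤ k := by
    rcases Nat.eq_zero_or_pos k with h0 | h0
    · exfalso
      rw [h0, pow_zero, one_mul] at hc'
      exact hndvd (hc' ▸ hpc)
    · exact h0
  obtain ⟨u, hu⟩ := S.assoc
  refine S.no_sol hpp hp ((p - 1) * k) ?_ (a : 𝓞 K) (b : 𝓞 K) (u ^ k * c') 1 ⟨?_, ?_, ?_⟩
  · have : 1 ≤ p - 1 := by omega
    exact Nat.mul_pos this hk1
  · exact hab.map (Int.castRingHom (𝓞 K))
  · intro hd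
    have h1 : hζ.toInteger - 1 ∣ (c' : 𝓞 K) := by
      have hunit : IsUnit ((u : 𝓞 K) ^ k) := (u.isUnit).pow k
      exact (hunit.dvd_mul_left).1 hd
    exact hndvd ((S.dvd_int c').1 h1)
  · have h1 : ((a ^ p + b ^ p : ℤ) : 𝓞 K) = ((c ^ p : ℤ) : 𝓞 K) := by rw [heq]
    push_cast at h1
    rw [h1]
    have h2 : (c : 𝓞 K) = (p : 𝓞 K) ^ k * c' := by
      conv_lhs => rw [hc']
      push_cast
      ring
    rw [h2, ← hu, Units.val_one, one_mul, pow_mul, mul_pow ((hζ.toInteger - 1) ^ (p - 1))]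
    ring


end Fermat.Agent.S11
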