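import Fermat.Agent.S11.KummerFiltration

open NumberField

namespace Fermat.Agent.S11

theorem kummerLemma_eleven (K : Type*) [Field K] [NumberField K]
    [IsCyclotomicExtension {11} ℚ K] : Fermat.Agent.S11.KummerLemma 11 K := by
  have : Fact (Nat.Prime 11) := ⟨by norm_num⟩
  have hζ := IsCyclotomicExtension.zeta_spec 11 ℚ K
  set z := hζ.toInteger with hz
  have hsum : 1 + z + z ^ 2 + z ^ 3 + z ^ 4 + z ^ 5 + z ^ 6 + z ^ 7 + z ^ 8 + z ^ 9 + z ^ 10 = 0 := by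
    have h := hζ.toInteger_isPrimitiveRoot.geom_sum_eq_zero (by norm_num : 1 < 11)
    simpa [Finset.sum_range_succ] using h
  let e0 : (𝓞 K)ˣ := ⟨z, z ^ 10, by linear_combination (z - 1) * hsum,
    by linear_combination (z - 1) * hsum⟩
  let e1 : (𝓞 K)ˣ := ⟨(-1) + (-1) * z ^ 2 + (-1) * z ^ 4 + (-1) * z ^ 7 + (-1) * z ^ 9,
    (1) * z ^ 5 + (1) * z ^ 6,
    by linear_combination ((-1) + (1) * z + (-1) * z ^ 5) * hsum,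
    by linear_combination ((-1) + (1) * z + (-1) * z ^ 5) * hsum⟩
  let e2 : (𝓞 K)ˣ := ⟨(1) * z ^ 2 + (-1) * z ^ 3 + (1) * z ^ 4 + (1) * z ^ 7 + (-1) * z ^ 8 + (1) * z ^ 9,
    (1) * z ^ 4 + (2) * z ^ 5 + (2) * z ^ 6 + (1) * z ^ 7,
    by linear_combination ((-1) + (1) * z + (1) * z ^ 6) * hsum,
    by linear_combination ((-1) + (1) * z + (1) * z ^ 6) * hsum⟩
  let e3 : (𝓞 K)ˣ := ⟨(-27) + (-25) * z ^ 2 + (-4) * z ^ 3 + (-19) * z ^ 4 + (-11) * z ^ 5 + (-11) * z ^ 6 + (-19) * z ^ 7 + (-4) * z ^ 8 + (-25) * z ^ 9,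
    (3) + (-2) * z ^ 2 + (1) * z ^ 3 + (2) * z ^ 4 + (2) * z ^ 7 + (1) * z ^ 8 + (-2) * z ^ 9,
    by linear_combination ((-82) + (82) * z + (-21) * z ^ 2 + (-18) * z ^ 3 + (-22) * z ^ 4 + (11) * z ^ 5 + (1) * z ^ 6 + (-67) * z ^ 7 + (50) * z ^ 8) * hsum,
    by linear_combination ((-82) + (82) * z + (-21) * z ^ 2 + (-18) * z ^ 3 + (-22) * z ^ 4 + (11) * z ^ 5 + (1) * z ^ 6 + (-67) * z ^ 7 + (50) * z ^ 8) * hsum⟩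
  let e4 : (𝓞 K)ˣ := ⟨(147) + (104) * z ^ 2 + (61) * z ^ 3 + (58) * z ^ 4 + (73) * z ^ 5 + (73) * z ^ 6 + (58) * z ^ 7 + (61) * z ^ 8 + (104) * z ^ 9,
    (7) * z ^ 2 + (26) * z ^ 3 + (46) * z ^ 4 + (56) * z ^ 5 + (56) * z ^ 6 + (46) * z ^ 7 + (26) * z ^ 8 + (7) * z ^ 9,
    by linear_combination ((-1) + (1) * z + (1029) * z ^ 2 + (2793) * z ^ 3 + (3668) * z ^ 4 + (3873) * z ^ 5 + (3645) * z ^ 6 + (2403) * z ^ 7 + (728) * z ^ 8) * hsum,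
    by linear_combination ((-1) + (1) * z + (1029) * z ^ 2 + (2793) * z ^ 3 + (3668) * z ^ 4 + (3873) * z ^ 5 + (3645) * z ^ 6 + (2403) * z ^ 7 + (728) * z ^ 8) * hsum⟩
  refine Fermat.Agent.S11.kummerLemma_of_filtration (by norm_num) hζ 5 (by norm_num)
    ![e0, e1, e2, e3, e4] ![1, 2, 4, 6, 8] ?_ ?_ ?_
    ![1, -5, 2, -2, 2] ![1, 4, 2, 1, -2] ?_ ?_
  · unfold StrictMono; decide
  · decide
  · decide
  · decide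
  · intro i
    fin_cases i
    · show (z - 1) ^ (1 + 1) ∣ z - ((1 : ℤ) : 𝓞 K) * (1 + ((1 : ℤ) : 𝓞 K) * (z - 1) ^ 1)
      exact ⟨0, by push_cast; ring⟩
    · show (z - 1) ^ (2 + 1) ∣ ((-1) + (-1) * z ^ 2 + (-1) * z ^ 4 + (-1) * z ^ 7 + (-1) * z ^ 9) -
        ((-5 : ℤ) : 𝓞 K) * (1 + ((4 : ℤ) : 𝓞 K) * (z - 1) ^ 2)
      exact ⟨(-16) + (-14) * z + (-13) * z ^ 2 + (-13) * z ^ 3 + (-13) * z ^ 4 + (-13) * z ^ 5 + (-13) * z ^ 6 + (-12) * z ^ 7 + (-10) * z ^ 8 + (-6) * z ^ 9,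
        by push_cast; linear_combination ((8) + (-14) * z + (6) * z ^ 2) * hsum⟩
    · show (z - 1) ^ (4 + 1) ∣ ((1) * z ^ 2 + (-1) * z ^ 3 + (1) * z ^ 4 + (1) * z ^ 7 + (-1) * z ^ 8 + (1) * z ^ 9) -
        ((2 : ℤ) : 𝓞 K) * (1 + ((2 : ℤ) : 𝓞 K) * (z - 1) ^ 4)
      exact ⟨(5) + (4) * z + (1) * z ^ 2 + (-3) * z ^ 3 + (-7) * z ^ 4 + (-10) * z ^ 5 + (-11) * z ^ 6 + (-10) * z ^ 7 + (-7) * z ^ 8 + (-3) * z ^ 9,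
        by push_cast; linear_combination ((-1) + (-4) * z + (13) * z ^ 2 + (-11) * z ^ 3 + (3) * z ^ 4) * hsum⟩
    · show (z - 1) ^ (6 + 1) ∣ ((-27) + (-25) * z ^ 2 + (-4) * z ^ 3 + (-19) * z ^ 4 + (-11) * z ^ 5 + (-11) * z ^ 6 + (-19) * z ^ 7 + (-4) * z ^ 8 + (-25) * z ^ 9) -
        ((-2 : ℤ) : 𝓞 K) * (1 + ((1 : ℤ) : 𝓞 K) * (z - 1) ^ 6)
      exact ⟨(-3) + (-8) * z + (-15) * z ^ 2 + (-22) * z ^ 3 + (-27) * z ^ 4 + (-28) * z ^ 5 + (-25) * z ^ 6 + (-18) * z ^ 7 + (-10) * z ^ 8 + (-3) * z ^ 9,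
        by push_cast; linear_combination ((-26) + (27) * z + (-18) * z ^ 2 + (-7) * z ^ 3 + (22) * z ^ 4 + (-14) * z ^ 5 + (3) * z ^ 6) * hsum⟩
    · show (z - 1) ^ (8 + 1) ∣ ((147) + (104) * z ^ 2 + (61) * z ^ 3 + (58) * z ^ 4 + (73) * z ^ 5 + (73) * z ^ 6 + (58) * z ^ 7 + (61) * z ^ 8 + (104) * z ^ 9) -
        ((2 : ℤ) : 𝓞 K) * (1 + ((-2 : ℤ) : 𝓞 K) * (z - 1) ^ 8)
      exact ⟨(-27) + (-61) * z + (-95) * z ^ 2 + (-118) * z ^ 3 + (-123) * z ^ 4 + (-108) * z ^ 5 + (-77) * z ^ 6 + (-41) * z ^ 7 + (-10) * z ^ 8 + (5) * z ^ 9,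
        by push_cast; linear_combination ((122) + (28) * z + (-452) * z ^ 2 + (948) * z ^ 3 + (-1067) * z ^ 4 + (717) * z ^ 5 + (-284) * z ^ 6 + (60) * z ^ 7 + (-5) * z ^ 8) * hsum⟩

end Fermat.Agent.S11
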