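import Mathlib

open NumberField Ideal Polynomial

namespace Fermat.Agent.S11

theorem minkowski_eleven_lt (K : Type*) [Field K] [NumberField K]
    [IsCyclotomicExtension {11} ℚ K] :
    (4 / Real.pi) ^ InfinitePlace.nrComplexPlaces K *
      ((Module.finrank ℚ K).factorial / (Module.finrank ℚ K) ^ (Module.finrank ℚ K) *
        √|(discr K : ℝ)|) < 59 := by
  have : Fact (Nat.Prime 11) := ⟨by norm_num⟩
  rw [IsCyclotomicExtension.Rat.discr_prime 11 K, IsCyclotomicExtension.finrank (n := 11) K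
    (cyclotomic.irreducible_rat (by simp)),
    IsCyclotomicExtension.Rat.nrComplexPlaces_eq_totient_div_two 11,
    Nat.totient_prime (by norm_num : Nat.Prime 11)]
  have h1 : √|(((-1) ^ ((11 - 1) / 2) * (11 : ℕ) ^ (11 - 2) : ℤ) : ℝ)| ≤ 48558.8 := by
    rw [Real.sqrt_le_left (by norm_num)]
    norm_num
  have h2 : (4 / Real.pi) ^ ((11 - 1) / 2) ≤ (4 / 3.1415 : ℝ) ^ ((11 - 1) / 2) := by
    gcongr
    exact Real.pi_gt_d4.le
  calc _ ≤ (4 / 3.1415 : ℝ) ^ ((11 - 1) / 2) * (((11 - 1 : ℕ).factorial : ℝ) / ((11 - 1 : ℕ) : ℝ) ^ (11 - 1) * 48558.8) := by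
        gcongr
    _ < 59 := by
        norm_num [Nat.factorial]

theorem pow_orderOf_gt (x : ZMod 11) (p n : ℕ) (hp : 1 < p)
    (h : ∀ i < n, 0 < i → x ^ i ≠ 1) (hx : x ^ 10 = 1) (hpn : 58 < p ^ n) :
    58 < p ^ orderOf x := by
  have hpos : 0 < orderOf x :=
    orderOf_pos_iff.mpr (isOfFinOrder_iff_pow_eq_one.mpr ⟨10, by norm_num, hx⟩)
  have hle : n ≤ orderOf x := by
    by_contra hlt
    exact h _ (not_le.mp hlt) hpos (pow_orderOf_eq_one x)
  exact lt_of_lt_of_le hpn (Nat.pow_le_pow_right hp.le hle)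

theorem sum_pow_four_zmod : (∑ x ∈ Finset.range 11, (4 : ZMod 23) ^ x) = 0 := by decide

theorem exists_principal_over_23 (K : Type*) [Field K] [NumberField K]
    [IsCyclotomicExtension {11} ℚ K] :
    ∃ P ∈ primesOver (span {((23 : ℕ) : ℤ)}) (𝓞 K), Submodule.IsPrincipal P := by
  have : Fact (Nat.Prime 11) := ⟨by norm_num⟩
  have : Fact (Nat.Prime 23) := ⟨by norm_num⟩
  have hζ := IsCyclotomicExtension.zeta_spec 11 ℚ K
  set θ := hζ.toInteger with hθ
  have h₁ : ¬ 23 ∣ RingOfIntegers.exponent θ := by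
    rw [RingOfIntegers.exponent_eq_one_iff.mpr <|
      IsCyclotomicExtension.Rat.adjoin_singleton_eq_top hζ]
    norm_num
  have hmin : minpoly ℤ θ = cyclotomic 11 ℤ := by
    rw [cyclotomic_eq_minpoly hζ (by norm_num), ← hζ.coe_toInteger,
      ← RingOfIntegers.minpoly_coe θ]
    rfl
  have hsum : 1 + θ + θ ^ 2 + θ ^ 3 + θ ^ 4 + θ ^ 5 + θ ^ 6 + θ ^ 7 + θ ^ 8 + θ ^ 9 + θ ^ 10 = 0 := by
    have h := minpoly.aeval ℤ θ
    rw [hmin, cyclotomic_prime] at h
    simpa [Finset.sum_range_succ] using h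
  have hQ : (X - C 4 : ℤ[X]).map (Int.castRingHom (ZMod 23)) ∈
      RingOfIntegers.monicFactorsMod θ 23 := by
    rw [Multiset.mem_toFinset, Polynomial.mem_normalizedFactors_iff
      (map_monic_ne_zero (minpoly.monic θ.isIntegral))]
    have e : (X - C 4 : ℤ[X]).map (Int.castRingHom (ZMod 23)) = X - C (4 : ZMod 23) := by
      rw [Polynomial.map_sub, Polynomial.map_X, Polynomial.map_C, eq_intCast, Int.cast_ofNat]
    rw [e]
    refine ⟨irreducible_X_sub_C _, monic_X_sub_C _, ?_⟩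
    rw [dvd_iff_isRoot, hmin, map_cyclotomic, cyclotomic_prime]
    simp only [IsRoot.def, eval_finsetSum, eval_pow, eval_X]
    exact sum_pow_four_zmod
  refine ⟨span {((23 : ℕ) : 𝓞 K), aeval θ (X - C 4 : ℤ[X])}, ?_, ?_⟩
  · rw [← NumberField.Ideal.primesOverSpanEquivMonicFactorsMod_symm_apply_eq_span h₁ hQ]
    exact ((NumberField.Ideal.primesOverSpanEquivMonicFactorsMod h₁).symm ⟨_, hQ⟩).prop
  · refine ⟨1 + θ + θ ^ 3, ?_⟩
    have e2 : aeval θ (X - C 4 : ℤ[X]) = θ - 4 := by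
      rw [map_sub, aeval_X, aeval_C, eq_intCast, Int.cast_ofNat]
    rw [e2]
    apply le_antisymm
    · rw [Ideal.span_le]
      intro x hx
      rcases hx with rfl | rfl
      · refine Ideal.mem_span_singleton.mpr ⟨(-2) + (-14)*θ + (-17)*θ^2 + (-12)*θ^3 + (-5)*θ^4 + (-9)*θ^5 + (-10)*θ^6 + (-16)*θ^7 + (-6)*θ^8 + (-15)*θ^9, ?_⟩
        push_cast
        linear_combination (-((-25) + (9)*θ + (-15)*θ^2)) * hsum
      · refine Ideal.mem_span_singleton.mpr ⟨(1) + (3)*θ + (3)*θ^2 + (2)*θ^3 + (1)*θ^4 + (2)*θ^5 + (2)*θ^6 + (3)*θ^7 + (1)*θ^8 + (3)*θ^9, ?_⟩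
        linear_combination (-((5) + (-2)*θ + (3)*θ^2)) * hsum
    · rw [Submodule.span_singleton_le_iff_mem]
      refine Ideal.mem_span_pair.mpr ⟨3, θ ^ 2 + 4 * θ + 17, ?_⟩
      push_cast
      ring

theorem pid_eleven (K : Type*) [Field K] [NumberField K] [IsCyclotomicExtension {11} ℚ K] :
    IsPrincipalIdealRing (𝓞 K) := by
  have : Fact (Nat.Prime 11) := ⟨by norm_num⟩
  have : IsGalois ℚ K := IsCyclotomicExtension.isGalois {11} ℚ K
  apply RingOfIntegers.isPrincipalIdealRing_of_isPrincipal_of_lt_or_isPrincipal_of_mem_primesOver_of_mem_Icc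
  have hM : ⌊(4 / Real.pi) ^ InfinitePlace.nrComplexPlaces K *
      ((Module.finrank ℚ K).factorial / (Module.finrank ℚ K) ^ (Module.finrank ℚ K) *
        √|(discr K : ℝ)|)⌋₊ ≤ 58 := by
    apply Nat.le_of_lt_succ
    rw [Nat.floor_lt (by positivity)]
    exact_mod_cast minkowski_eleven_lt K
  intro p hp hprime
  have hp58 : p ≤ 58 := (Finset.mem_Icc.mp hp).2.trans hM
  have : Fact p.Prime := ⟨hprime⟩
  by_cases h11 : p = 11
  · subst h11
    obtain ⟨⟨P, hP1, hP2⟩⟩ := (span {((11 : ℕ) : ℤ)}).nonempty_primesOver (S := 𝓞 K)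
    refine ⟨P, ⟨hP1, hP2⟩, Or.inr ?_⟩
    rw [IsCyclotomicExtension.Rat.eq_span_zeta_sub_one_of_liesOver' 11 K
      (IsCyclotomicExtension.zeta_spec 11 ℚ K) P]
    exact ⟨_, rfl⟩
  by_cases h23 : p = 23
  · subst h23
    obtain ⟨P, hP, hPp⟩ := exists_principal_over_23 K
    exact ⟨P, hP, Or.inr hPp⟩
  obtain ⟨⟨P, hP1, hP2⟩⟩ := (span {(p : ℤ)}).nonempty_primesOver (S := 𝓞 K)
  refine ⟨P, ⟨hP1, hP2⟩, Or.inl (lt_of_le_of_lt hM ?_)⟩
  have hnd : ¬ p ∣ 11 := by
    intro hd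
    rcases (Nat.dvd_prime (by norm_num : Nat.Prime 11)).mp hd with h | h
    · exact hprime.one_lt.ne' h
    · exact h11 h
  rw [IsCyclotomicExtension.Rat.inertiaDeg_eq_of_not_dvd p K P hnd]
  clear hP1 hP2 P hp hM this
  interval_cases p <;> first
    | (exfalso; revert hprime; norm_num; done)
    | (exfalso; exact h11 rfl)
    | (exfalso; exact h23 rfl)
    | (apply pow_orderOf_gt _ _ 2 <;> decide)
    | (apply pow_orderOf_gt _ _ 3 <;> decide)
    | (apply pow_orderOf_gt _ _ 4 <;> decide)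
    | (apply pow_orderOf_gt _ _ 6 <;> decide)

end Fermat.Agent.S11
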