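import Mathlib

open NumberField

namespace Fermat.Agent.S11

/-- Kummer's lemma for the prime `p` in the number field `K` (to be used with the `p`-th
cyclotomic field): a unit congruent to a rational integer modulo `p` is a `p`-th power. -/
def KummerLemma (p : ℕ) (K : Type*) [Field K] [NumberField K] : Prop :=
  ∀ u : (𝓞 K)ˣ, (∃ n : ℤ, (p : 𝓞 K) ∣ (u : 𝓞 K) - n) → ∃ v : (𝓞 K)ˣ, u = v ^ p

end Fermat.Agent.S11
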