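import Fermat.Agent.S11.KummerGeneric

set_option autoImplicit false

open NumberField Polynomial

namespace Fermat.Agent.S11

variable {p : ℕ} [hp : Fact p.Prime]
variable {K : Type*} [Field K] [NumberField K] [IsCyclotomicExtension {p} ℚ K]
  {ζ : K} (hζ : IsPrimitiveRoot ζ p)

/-- cyclotomic unit `1 + ζ + ... + ζ^(a-1)`. -/
noncomputable def cycUnit (a : ℕ) (ha : a.Coprime p) : (𝓞 K)ˣ :=
  (hζ.toInteger_isPrimitiveRoot.geom_sum_isUnit hp.out.two_le ha).unit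

omit [NumberField K] [IsCyclotomicExtension {p} ℚ K] in
lemma cycUnit_val (a : ℕ) (ha : a.Coprime p) :
    ((cycUnit hζ a ha : (𝓞 K)ˣ) : 𝓞 K) = ∑ i ∈ Finset.range a, hζ.toInteger ^ i := rfl

lemma psi_pow_fst (hp2 : 2 < p) (i : ℕ) :
    (psi hζ hp2 (hζ.toInteger ^ i)).fst = (1 + tA p) ^ i := by
  rw [map_pow, psi_zeta, TrivSqZeroExt.fst_pow, yB_fst]

lemma psi_pow_snd (hp2 : 2 < p) (i : ℕ) :
    (psi hζ hp2 (hζ.toInteger ^ i)).snd = (i : TA p) * (1 + tA p) ^ (i - 1) := by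
  rw [map_pow, psi_zeta, TrivSqZeroExt.snd_pow, yB_fst, yB_snd]
  simp [Nat.pred_eq_sub_one]

theorem kummer_of_cert (hp2 : 2 < p) (r : ℕ) (hr : (p - 3) / 2 ≤ r) (hr' : r + 1 < p)
    (N1 : TA p) (N : Fin r → TA p)
    (hN1 : N1 * (1 + tA p) = 1)
    (hN : ∀ a : Fin r, N a * (∑ i ∈ Finset.range ((a : ℕ) + 2), (1 + tA p) ^ i) =
        ∑ i ∈ Finset.range ((a : ℕ) + 2), (i : TA p) * (1 + tA p) ^ (i - 1))
    (hind : ∀ (k : ℤ) (g : Fin r → ℤ), k • N1 + ∑ a, g a • N a = 0 →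
      (p : ℤ) ∣ k ∧ ∀ a, (p : ℤ) ∣ g a)
    (u : (𝓞 K)ˣ) (n : ℤ) (h : (p : 𝓞 K) ∣ (u : 𝓞 K) - n) : ∃ v : (𝓞 K)ˣ, u = v ^ p := by
  have hζ := IsCyclotomicExtension.zeta_spec p ℚ K
  have hcop : ∀ a : Fin r, ((a : ℕ) + 2).Coprime p := fun a =>
    Nat.Coprime.symm ((Nat.Prime.coprime_iff_not_dvd hp.out).2 (fun hd => by
      have h1 := Nat.le_of_dvd (by omega) hd
      have h2 := a.2
      omega))
  refine kummer_generic hζ hp2 (ι := Fin r) (by rw [rank_eq hp.out hp2, Fintype.card_fin]; exact hr)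
    (fun a => cycUnit hζ ((a : ℕ) + 2) (hcop a)) ?_ u n h
  have h1 : Lf hζ hp2 (zetaUnit hζ) = N1 := by
    apply Lf_eq_of_mul_eq
    have hf := psi_pow_fst hζ hp2 1
    have hs := psi_pow_snd hζ hp2 1
    rw [pow_one] at hf hs
    rw [zetaUnit_val, hf, hs]
    simpa using hN1
  have h2 : ∀ a : Fin r, Lf hζ hp2 (cycUnit hζ ((a : ℕ) + 2) (hcop a)) = N a := by
    intro a
    apply Lf_eq_of_mul_eq
    rw [cycUnit_val, map_sum]
    have hf : (∑ i ∈ Finset.range ((a : ℕ) + 2), psi hζ hp2 (hζ.toInteger ^ i)).fst =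
        ∑ i ∈ Finset.range ((a : ℕ) + 2), (1 + tA p) ^ i := by
      rw [← TrivSqZeroExt.fstHom_apply (R := TA p) (S := TA p), map_sum]
      exact Finset.sum_congr rfl fun i _ => psi_pow_fst hζ hp2 i
    have hs : (∑ i ∈ Finset.range ((a : ℕ) + 2), psi hζ hp2 (hζ.toInteger ^ i)).snd =
        ∑ i ∈ Finset.range ((a : ℕ) + 2), (i : TA p) * (1 + tA p) ^ (i - 1) := by
      rw [← TrivSqZeroExt.sndHom_apply (R := TA p), map_sum]
      exact Finset.sum_congr rfl fun i _ => psi_pow_snd hζ hp2 i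
    rw [hf, hs]
    exact hN a
  intro k g hkg
  simp only [h1, h2] at hkg
  exact hind k g hkg

end Fermat.Agent.S11
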