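import Fermat.Agent.S11.Defs

open NumberField NumberField.Units Module

namespace Fermat.Agent.S11

theorem rank_cyclotomic {p : ℕ} [Fact p.Prime] (hp : 3 ≤ p) (K : Type*) [Field K] [NumberField K]
    [IsCyclotomicExtension {p} ℚ K] : Units.rank K = (p - 3) / 2 := by
  have hpp : p.Prime := Fact.out
  rw [Units.rank, InfinitePlace.card_eq_nrRealPlaces_add_nrComplexPlaces,
    IsCyclotomicExtension.Rat.nrRealPlaces_eq_zero (n := p) K (by omega),
    IsCyclotomicExtension.Rat.nrComplexPlaces_eq_totient_div_two p, Nat.totient_prime hpp]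
  omega

theorem kummerLemma_of_dlog {p : ℕ} [Fact p.Prime] (hp : 3 ≤ p) {K : Type*} [Field K]
    [NumberField K] [IsCyclotomicExtension {p} ℚ K] {M : Type*} [AddCommGroup M]
    [Module (ZMod p) M] (dl : Additive (𝓞 K)ˣ →+ M)
    (hdl : ∀ (u : (𝓞 K)ˣ) (n : ℤ), (p : 𝓞 K) ∣ (u : 𝓞 K) - n → dl (Additive.ofMul u) = 0)
    (c : Fin ((p - 1) / 2) → (𝓞 K)ˣ)
    (hc : LinearIndependent (ZMod p) (fun i => dl (Additive.ofMul (c i)))) :
    KummerLemma p K := by
  classical
  have hpp : p.Prime := Fact.out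
  have hodd : Odd p := hpp.odd_of_ne_two (by omega)
  have hr : Units.rank K = (p - 3) / 2 := rank_cyclotomic hp K
  have hζ := IsCyclotomicExtension.zeta_spec p ℚ K
  -- the unit `-ζ`
  set z : (𝓞 K)ˣ := -(hζ.toInteger_isPrimitiveRoot.isUnit hpp.ne_zero).unit with hz
  -- every torsion unit is a power of z
  have htors : ∀ t : (𝓞 K)ˣ, t ∈ torsion K → ∃ k : ℕ, t = z ^ k := by
    intro t ht
    have hfin : IsOfFinOrder ((t : 𝓞 K) : K) := by
      have h1 : IsOfFinOrder t := (CommGroup.mem_torsion _).mp ht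
      obtain ⟨n, hn, hn1⟩ := isOfFinOrder_iff_pow_eq_one.mp h1
      refine isOfFinOrder_iff_pow_eq_one.mpr ⟨n, hn, ?_⟩
      have := congrArg (fun x : (𝓞 K)ˣ => ((x : 𝓞 K) : K)) hn1
      simpa using this
    obtain ⟨k, hk⟩ := hζ.exists_neg_pow_of_isOfFinOrder hodd hfin
    refine ⟨k, ?_⟩
    ext
    simp [hk, hz]
  -- generators
  let g : Option (Fin (Units.rank K)) → M := fun o =>
    match o with
    | none => dl (Additive.ofMul z)
    | some i => dl (Additive.ofMul (fundSystem K i))
  have hdecomp : ∀ u : (𝓞 K)ˣ, ∃ (k : ℕ) (e : Fin (Units.rank K) → ℤ),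
      u = z ^ k * ∏ i, (fundSystem K i) ^ (e i) := by
    intro u
    obtain ⟨⟨t, e⟩, hu, -⟩ := exist_unique_eq_mul_prod K u
    obtain ⟨k, hk⟩ := htors t t.2
    exact ⟨k, e, by rw [hu]; simp only [hk]⟩
  have hdl_decomp : ∀ (k : ℕ) (e : Fin (Units.rank K) → ℤ),
      dl (Additive.ofMul (z ^ k * ∏ i, (fundSystem K i) ^ (e i))) =
        ∑ o : Option (Fin (Units.rank K)),
          (match o with
            | none => (k : ZMod p)
            | some i => ((e i : ℤ) : ZMod p)) • g o := by
    intro k e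
    rw [Fintype.sum_option, ofMul_mul, map_add, ofMul_pow, map_nsmul, ofMul_prod, map_sum]
    congr 1
    · simp only [g]
      rw [Nat.cast_smul_eq_nsmul]
    · refine Finset.sum_congr rfl fun i _ => ?_
      simp only [g]
      rw [ofMul_zpow, map_zsmul, Int.cast_smul_eq_zsmul]
  have hspan : ∀ u : (𝓞 K)ˣ, dl (Additive.ofMul u) ∈ Submodule.span (ZMod p) (Set.range g) := by
    intro u
    obtain ⟨k, e, rfl⟩ := hdecomp u
    rw [hdl_decomp]
    exact Submodule.sum_mem _ fun o _ =>
      Submodule.smul_mem _ _ (Submodule.subset_span (Set.mem_range_self o))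
  have hg : LinearIndependent (ZMod p) g := by
    rw [linearIndependent_iff_card_le_finrank_span]
    have h1 : Submodule.span (ZMod p) (Set.range fun i => dl (Additive.ofMul (c i))) ≤
        Submodule.span (ZMod p) (Set.range g) := by
      rw [Submodule.span_le]
      rintro _ ⟨i, rfl⟩
      exact hspan _
    have : Module.Finite (ZMod p) (Submodule.span (ZMod p) (Set.range g)) :=
      Module.Finite.span_of_finite (ZMod p) (Set.finite_range g)
    have h2 := Submodule.finrank_mono h1
    rw [finrank_span_eq_card hc] at h2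
    simp only [Fintype.card_option, Fintype.card_fin] at h2 ⊢
    rw [Set.finrank]
    omega
  intro u ⟨n, hn⟩
  obtain ⟨k, e, rfl⟩ := hdecomp u
  have h0 := hdl _ n hn
  rw [hdl_decomp] at h0
  have h1 := (Fintype.linearIndependent_iff.mp hg) _ h0
  have hk : p ∣ k := by
    have := h1 none
    simpa using (ZMod.natCast_eq_zero_iff k p).mp this
  have he : ∀ i, (p : ℤ) ∣ e i := by
    intro i
    have := h1 (some i)
    exact (ZMod.intCast_zmod_eq_zero_iff_dvd (e i) p).mp this
  obtain ⟨k', rfl⟩ := hk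
  choose e' he' using he
  refine ⟨z ^ k' * ∏ i, (fundSystem K i) ^ (e' i), ?_⟩
  rw [mul_pow, ← pow_mul, mul_comm k' p, ← Finset.prod_pow]
  congr 1
  refine Finset.prod_congr rfl fun i _ => ?_
  rw [he' i, ← zpow_natCast, ← zpow_mul, mul_comm]

end Fermat.Agent.S11
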