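import Mathlib

set_option autoImplicit false

open NumberField Polynomial

namespace Fermat.Agent.S11

section Generic

variable (p : ℕ) [hp : Fact p.Prime]

/-- truncated polynomial ring `F_p[t]/(t^(p-2))`. -/
abbrev TA : Type := (ZMod p)[X] ⧸ Ideal.span {(X : (ZMod p)[X]) ^ (p - 2)}

noncomputable def tA : TA p := Ideal.Quotient.mk _ X

lemma tA_pow : (tA p) ^ (p - 2) = 0 := by
  rw [tA, ← map_pow, Ideal.Quotient.eq_zero_iff_mem]
  exact Ideal.mem_span_singleton_self _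

lemma p_eq_zero_TA : (p : TA p) = 0 := by
  have : (p : TA p) = algebraMap (ZMod p) (TA p) (p : ZMod p) := (map_natCast _ _).symm
  rw [this, ZMod.natCast_self, map_zero]

lemma coeff_extract (z : ℕ → ℤ)
    (h : ∑ i ∈ Finset.range (p - 2), (z i : TA p) * tA p ^ i = 0) :
    ∀ i < p - 2, (p : ℤ) ∣ z i := by
  intro i hi
  have h1 : (Ideal.Quotient.mk (Ideal.span {(X : (ZMod p)[X]) ^ (p - 2)}))
      (∑ i ∈ Finset.range (p - 2), C (z i : ZMod p) * X ^ i) = 0 := by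
    rw [← h, map_sum]
    refine Finset.sum_congr rfl fun j _ => ?_
    rw [map_mul, map_pow, tA]
    congr 1
  rw [Ideal.Quotient.eq_zero_iff_mem, Ideal.mem_span_singleton, X_pow_dvd_iff] at h1
  have h2 := h1 i hi
  rw [finsetSum_coeff] at h2
  simp only [coeff_C_mul, coeff_X_pow] at h2
  rw [Finset.sum_eq_single i] at h2
  · simpa [ZMod.intCast_zmod_eq_zero_iff_dvd] using h2
  · intro j _ hj
    simp [Ne.symm hj]
  · intro hi'
    exact absurd (Finset.mem_range.2 hi) hi'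

/-- The element `1 + t + ε`. -/
noncomputable def yB : DualNumber (TA p) := TrivSqZeroExt.inl (1 + tA p) + DualNumber.eps

lemma yB_fst : (yB p).fst = 1 + tA p := by simp [yB]
lemma yB_snd : (yB p).snd = 1 := by simp [yB]

lemma yB_sub_one_pow (hp2 : 2 < p) : (yB p - 1) ^ (p - 1) = 0 := by
  have ht := tA_pow p
  ext
  · rw [TrivSqZeroExt.fst_pow]
    simp only [TrivSqZeroExt.fst_sub, yB_fst, TrivSqZeroExt.fst_one, add_sub_cancel_left,
      TrivSqZeroExt.fst_zero]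
    have : p - 1 = (p - 2) + 1 := by omega
    rw [this, pow_succ, ht, zero_mul]
  · rw [TrivSqZeroExt.snd_pow]
    simp only [TrivSqZeroExt.fst_sub, yB_fst, TrivSqZeroExt.fst_one, add_sub_cancel_left,
      TrivSqZeroExt.snd_zero]
    have : (p - 1).pred = p - 2 := by simp [Nat.pred_eq_sub_one]; omega
    rw [this, ht]
    simp

lemma aeval_yB (hp2 : 2 < p) : aeval (yB p) (cyclotomic p ℤ) = 0 := by
  have h1 : cyclotomic p (ZMod p) = (X - 1) ^ (p - 1) := by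
    have := cyclotomic_mul_prime_eq_pow_of_not_dvd (ZMod p) (p := p) (n := 1)
      (by simpa using hp.out.one_lt.ne')
    rwa [one_mul, cyclotomic_one] at this
  have h2 : aeval (yB p) (cyclotomic p ℤ) = aeval (yB p) (cyclotomic p (ZMod p)) := by
    rw [← map_cyclotomic p (algebraMap ℤ (ZMod p)), aeval_map_algebraMap]
  rw [h2, h1]
  simp [yB_sub_one_pow p hp2]

variable {p}
variable {K : Type*} [Field K] [NumberField K] [IsCyclotomicExtension {p} ℚ K]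
  {ζ : K} (hζ : IsPrimitiveRoot ζ p)

omit [IsCyclotomicExtension {p} ℚ K] in
lemma minpoly_toInteger : minpoly ℤ hζ.toInteger = cyclotomic p ℤ := by
  rw [cyclotomic_eq_minpoly hζ hp.out.pos, ← RingOfIntegers.minpoly_coe]
  rfl

/-- the ring hom `𝓞 K → F_p[t,ε]`, `ζ ↦ 1 + t + ε`. -/
noncomputable def psi (hp2 : 2 < p) : 𝓞 K →ₐ[ℤ] DualNumber (TA p) :=
  hζ.integralPowerBasis.lift (yB p) (by
    rw [hζ.integralPowerBasis_gen, minpoly_toInteger hζ]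
    exact aeval_yB p hp2)

lemma psi_zeta (hp2 : 2 < p) : psi hζ hp2 hζ.toInteger = yB p := by
  have := hζ.integralPowerBasis.lift_gen (yB p) (by
    rw [hζ.integralPowerBasis_gen, minpoly_toInteger hζ]
    exact aeval_yB p hp2)
  conv_lhs => rw [← hζ.integralPowerBasis_gen]
  exact this

lemma psi_p (hp2 : 2 < p) : psi hζ hp2 (p : 𝓞 K) = 0 := by
  rw [map_natCast]
  ext
  · simp [p_eq_zero_TA]
  · simp

/-- logarithmic derivative. -/
noncomputable def Lf (hp2 : 2 < p) (u : (𝓞 K)ˣ) : TA p :=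
  (psi hζ hp2 (u : 𝓞 K)).snd * (psi hζ hp2 ((u⁻¹ : (𝓞 K)ˣ) : 𝓞 K)).fst

lemma fst_mul_fst_inv (hp2 : 2 < p) (u : (𝓞 K)ˣ) :
    (psi hζ hp2 (u : 𝓞 K)).fst * (psi hζ hp2 ((u⁻¹ : (𝓞 K)ˣ) : 𝓞 K)).fst = 1 := by
  rw [← TrivSqZeroExt.fst_mul, ← map_mul, Units.mul_inv, map_one, TrivSqZeroExt.fst_one]

lemma Lf_mul_fst (hp2 : 2 < p) (u : (𝓞 K)ˣ) :
    Lf hζ hp2 u * (psi hζ hp2 (u : 𝓞 K)).fst = (psi hζ hp2 (u : 𝓞 K)).snd := by
  rw [Lf, mul_assoc, mul_comm (TrivSqZeroExt.fst _), fst_mul_fst_inv, mul_one]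

lemma Lf_eq_of_mul_eq (hp2 : 2 < p) (u : (𝓞 K)ˣ) (x : TA p)
    (h : x * (psi hζ hp2 (u : 𝓞 K)).fst = (psi hζ hp2 (u : 𝓞 K)).snd) : Lf hζ hp2 u = x := by
  rw [Lf, ← h, mul_assoc, fst_mul_fst_inv, mul_one]

lemma Lf_mul (hp2 : 2 < p) (u v : (𝓞 K)ˣ) : Lf hζ hp2 (u * v) = Lf hζ hp2 u + Lf hζ hp2 v := by
  apply Lf_eq_of_mul_eq
  rw [Units.val_mul, map_mul, TrivSqZeroExt.fst_mul, TrivSqZeroExt.snd_mul,
    ← Lf_mul_fst hζ hp2 u, ← Lf_mul_fst hζ hp2 v]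
  simp only [smul_eq_mul, MulOpposite.smul_eq_mul_unop, MulOpposite.unop_op]
  ring

/-- `Lf` as a monoid hom. -/
noncomputable def Lhom (hp2 : 2 < p) : (𝓞 K)ˣ →* Multiplicative (TA p) where
  toFun u := Multiplicative.ofAdd (Lf hζ hp2 u)
  map_one' := by
    have : Lf hζ hp2 (1 : (𝓞 K)ˣ) = 0 := by
      apply Lf_eq_of_mul_eq; simp
    rw [this]; rfl
  map_mul' u v := by rw [Lf_mul]; rfl

lemma Lf_zpow (hp2 : 2 < p) (u : (𝓞 K)ˣ) (n : ℤ) : Lf hζ hp2 (u ^ n) = n • Lf hζ hp2 u := by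
  have := map_zpow (Lhom hζ hp2) u n
  exact congrArg Multiplicative.toAdd this

lemma Lf_pow (hp2 : 2 < p) (u : (𝓞 K)ˣ) (n : ℕ) : Lf hζ hp2 (u ^ n) = n • Lf hζ hp2 u := by
  have := map_pow (Lhom hζ hp2) u n
  exact congrArg Multiplicative.toAdd this

lemma Lf_prod (hp2 : 2 < p) {ι : Type*} (s : Finset ι) (f : ι → (𝓞 K)ˣ) :
    Lf hζ hp2 (∏ i ∈ s, f i) = ∑ i ∈ s, Lf hζ hp2 (f i) := by
  have := map_prod (Lhom hζ hp2) f s
  have h2 := congrArg Multiplicative.toAdd this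
  rw [toAdd_prod] at h2
  exact h2

lemma Lf_eq_zero_of_congr (hp2 : 2 < p) (u : (𝓞 K)ˣ) (n : ℤ)
    (h : (p : 𝓞 K) ∣ (u : 𝓞 K) - n) : Lf hζ hp2 u = 0 := by
  obtain ⟨w, hw⟩ := h
  have h1 : psi hζ hp2 (u : 𝓞 K) = (n : DualNumber (TA p)) := by
    have : (u : 𝓞 K) = n + p * w := by rw [← hw]; ring
    rw [this, map_add, map_mul, psi_p, zero_mul, add_zero, map_intCast]
  rw [Lf, h1]
  simp

end Generic

end Fermat.Agent.S11
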