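import Fermat.Agent.S11.KummerDirichlet
import Fermat.Agent.S11.CaseII

open NumberField Finset Polynomial

set_option linter.unusedSectionVars false

namespace Fermat.Agent.S11

namespace Filtration

variable {R : Type*} [CommRing R]

lemma pow_congr {l e : R} {s : ℕ} (hs : 1 ≤ s) {n β : ℤ}
    (h : l ^ (s + 1) ∣ e - n * (1 + β * l ^ s)) (d : ℕ) :
    l ^ (s + 1) ∣ e ^ d - ((n ^ d : ℤ) : R) * (1 + ((d * β : ℤ) : R) * l ^ s) := by
  induction d with
  | zero => simp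
  | succ d ih =>
    have h1 := dvd_mul_sub_mul ih h
    have h2 : l ^ (s + 1) ∣ ((n ^ d : ℤ) : R) * n * (d * β * β) * l ^ (2 * s) := by
      apply Dvd.dvd.mul_left
      exact pow_dvd_pow _ (by omega)
    have := dvd_add h1 h2
    convert this using 1
    push_cast
    ring

lemma pow_congr' {l e : R} {s t : ℕ} (hst : t + 1 ≤ s) {n β : ℤ}
    (h : l ^ (s + 1) ∣ e - n * (1 + β * l ^ s)) (d : ℕ) :
    l ^ (t + 1) ∣ e ^ d - ((n ^ d : ℤ) : R) := by
  have h1 : l ^ (t + 1) ∣ e - n := by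
    have h2 : l ^ (t + 1) ∣ e - n * (1 + β * l ^ s) := (pow_dvd_pow _ (by omega)).trans h
    have h3 : l ^ (t + 1) ∣ (n : R) * β * l ^ s := Dvd.dvd.mul_left (pow_dvd_pow _ hst) _
    have := dvd_add h2 h3
    convert this using 1
    ring
  push_cast
  exact h1.trans (sub_dvd_pow_sub_pow _ _ d)

lemma prod_congr_int {ι : Type*} (T : Finset ι) {m : R} (f : ι → R) (g : ι → ℤ)
    (h : ∀ i ∈ T, m ∣ f i - g i) : m ∣ ∏ i ∈ T, f i - ((∏ i ∈ T, g i : ℤ) : R) := by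
  classical
  induction T using Finset.induction_on with
  | empty => simp
  | insert a T ha ih =>
    rw [prod_insert ha, prod_insert ha]
    push_cast
    have h1 := h a (mem_insert_self a T)
    have h2 := ih fun i hi => h i (mem_insert_of_mem hi)
    push_cast at h2
    exact dvd_mul_sub_mul h1 h2

/-- The key computation: a product of powers of "triangular" elements which is congruent to an
integer mod `p` has all exponents divisible by `p`. -/
theorem exponents_eq_zero [IsDomain R] {p : ℕ} (hp : p.Prime) {l : R} (hl0 : l ≠ 0)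
    (hassoc : Associated (l ^ (p - 1)) (p : R)) (hint : ∀ n : ℤ, l ∣ (n : R) ↔ (p : ℤ) ∣ n)
    {r : ℕ} (e : Fin r → R) (s : Fin r → ℕ) (hs : StrictMono s) (hs1 : ∀ i, 1 ≤ s i)
    (hs2 : ∀ i, s i + 2 ≤ p) (n β : Fin r → ℤ) (hn : ∀ i, ¬ (p : ℤ) ∣ n i)
    (hβ : ∀ i, ¬ (p : ℤ) ∣ β i)
    (h : ∀ i, l ^ (s i + 1) ∣ e i - n i * (1 + β i * l ^ (s i)))
    (d : Fin r → ℕ) (hd : ∀ i, d i < p) (n₀ : ℤ) (hu : (p : R) ∣ ∏ i, e i ^ d i - n₀) :
    ∀ i, d i = 0 := by
  classical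
  have hpZ : Prime (p : ℤ) := Nat.prime_iff_prime_int.1 hp
  intro i
  induction i using WellFoundedLT.induction with
  | _ i ih =>
  -- the other factors are congruent to integers prime to `p`
  have hother : ∀ j ∈ (univ : Finset (Fin r)).erase i,
      l ^ (s i + 1) ∣ e j ^ d j - (((n j) ^ d j : ℤ) : R) := by
    intro j hj
    rcases lt_or_gt_of_ne (ne_of_mem_erase hj) with hlt | hgt
    · rw [ih j hlt]; simp
    · exact pow_congr' (hs hgt) (h j) (d j)
  have h1 := prod_congr_int _ _ _ hother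
  set m : ℤ := ∏ j ∈ (univ : Finset (Fin r)).erase i, (n j) ^ d j with hm
  have hmp : ¬ (p : ℤ) ∣ m := by
    intro hdvd
    obtain ⟨j, -, hj⟩ := hpZ.exists_mem_finset_dvd hdvd
    exact hn j (hpZ.dvd_of_dvd_pow hj)
  have h2 := pow_congr (hs1 i) (h i) (d i)
  have h3 := dvd_mul_sub_mul h2 h1
  rw [mul_prod_erase univ (fun j => e j ^ d j) (mem_univ i)] at h3
  have h4 : l ^ (s i + 1) ∣ ∏ i, e i ^ d i - n₀ :=
    ((pow_dvd_pow _ (by have := hs2 i; omega)).trans hassoc.dvd).trans hu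
  set N : ℤ := (n i) ^ d i * m with hN
  have hNp : ¬ (p : ℤ) ∣ N := by
    intro hdvd
    rcases hpZ.dvd_or_dvd hdvd with h5 | h5
    · exact hn i (hpZ.dvd_of_dvd_pow h5)
    · exact hmp h5
  have h5 : l ^ (s i + 1) ∣ ((N - n₀ : ℤ) : R) + ((N * (d i * β i) : ℤ) : R) * l ^ (s i) := by
    have := dvd_sub h4 h3
    convert this using 1
    rw [hN]
    push_cast
    ring
  have h6 : l ∣ ((N - n₀ : ℤ) : R) := by
    have h7 : l ∣ ((N - n₀ : ℤ) : R) + ((N * (d i * β i) : ℤ) : R) * l ^ (s i) :=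
      (dvd_pow_self l (by omega)).trans h5
    exact (dvd_add_left (Dvd.dvd.mul_left (dvd_pow_self l (by have := hs1 i; omega)) _)).1 h7
  have h7 : l ^ (s i + 1) ∣ ((N - n₀ : ℤ) : R) := by
    obtain ⟨c, hc⟩ := (hint _).1 h6
    have : (p : R) ∣ ((N - n₀ : ℤ) : R) := ⟨c, by rw [hc]; push_cast; ring⟩
    exact ((pow_dvd_pow _ (by have := hs2 i; omega)).trans hassoc.dvd).trans this
  have h8 : l ^ (s i + 1) ∣ ((N * (d i * β i) : ℤ) : R) * l ^ (s i) := (dvd_add_right h7).1 h5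
  have h9 : l ∣ ((N * (d i * β i) : ℤ) : R) := by
    rw [pow_succ, mul_comm _ (l ^ s i)] at h8
    exact (mul_dvd_mul_iff_left (pow_ne_zero _ hl0)).1 h8
  have h10 : (p : ℤ) ∣ N * (d i * β i) := (hint _).1 h9
  have h11 : (p : ℤ) ∣ (d i : ℤ) := by
    rcases hpZ.dvd_or_dvd h10 with h12 | h12
    · exact absurd h12 hNp
    · rcases hpZ.dvd_or_dvd h12 with h13 | h13
      · exact h13
      · exact absurd h13 (hβ i)
  have h12 : p ∣ d i := by exact_mod_cast h11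
  exact Nat.eq_zero_of_dvd_of_lt h12 (hd i)

section cyclo

variable {p : ℕ} [Fact p.Prime] {K : Type*} [Field K] [NumberField K]
  [IsCyclotomicExtension {p} ℚ K] {ζ : K}

lemma exists_int_pow_sub (hζ : IsPrimitiveRoot ζ p) (x : 𝓞 K) :
    ∃ n : ℤ, (p : 𝓞 K) ∣ x ^ p - n := by
  have hp : p.Prime := Fact.out
  obtain ⟨n, hn⟩ := exists_int_sub_dvd hζ x
  refine ⟨n ^ p, ?_⟩
  have hprim := hζ.toInteger_isPrimitiveRoot
  have h1 : (hζ.toInteger - 1) ^ p ∣ x ^ p - (n : 𝓞 K) ^ p := by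
    rw [hprim.pow_sub_pow_eq_prod_sub_mul x n hp.pos]
    have hcard : (nthRootsFinset p (1 : 𝓞 K)).card = p := hprim.card_nthRootsFinset
    calc (hζ.toInteger - 1) ^ p = ∏ _μ ∈ nthRootsFinset p (1 : 𝓞 K), (hζ.toInteger - 1) := by
          rw [prod_const, hcard]
      _ ∣ _ := by
          refine prod_dvd_prod_of_dvd _ _ fun μ hμ => ?_
          have h1 : hζ.toInteger - 1 ∣ 1 - μ := hprim.sub_one_dvd_sub hp (Setting.one_mem hp) hμ
          have : x - μ * n = (x - n) + (1 - μ) * n := by ring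
          rw [this]
          exact dvd_add hn (h1.mul_right _)
  push_cast
  refine Dvd.dvd.trans ?_ h1
  exact (IsCyclotomicExtension.Rat.associated_zeta_sub_one_pow_prime p hζ).symm.dvd.trans
    (pow_dvd_pow _ (Nat.sub_le p 1))

lemma not_dvd_of_unit (hζ : IsPrimitiveRoot ζ p) {k : ℕ} (hk : 1 ≤ k) (u : (𝓞 K)ˣ) {n : ℤ} {w : 𝓞 K}
    (h : (hζ.toInteger - 1) ^ k ∣ (u : 𝓞 K) - n * w) : ¬ (p : ℤ) ∣ n := by
  intro hpn
  have h1 : hζ.toInteger - 1 ∣ (n : 𝓞 K) :=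
    (IsCyclotomicExtension.Rat.zeta_sub_one_dvd_intCast_iff' p hζ).2 hpn
  have h2 : hζ.toInteger - 1 ∣ (u : 𝓞 K) - n * w := (dvd_pow_self _ (by omega)).trans h
  have h3 : hζ.toInteger - 1 ∣ (u : 𝓞 K) := (dvd_sub_left (h1.mul_right w)).1 h2
  exact hζ.zeta_sub_one_prime'.not_isUnit (isUnit_of_dvd_unit h3 u.isUnit)

variable (p K) in
/-- The subgroup of units congruent to a rational integer modulo `p`. -/
def intUnits : Subgroup (𝓞 K)ˣ where
  carrier := {u | ∃ n : ℤ, (p : 𝓞 K) ∣ (u : 𝓞 K) - n}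
  one_mem' := ⟨1, by simp⟩
  mul_mem' := by
    rintro u v ⟨n, hn⟩ ⟨m, hm⟩
    refine ⟨n * m, ?_⟩
    push_cast
    exact dvd_mul_sub_mul hn hm
  inv_mem' := by
    rintro u ⟨n, hn⟩
    have hp : p.Prime := Fact.out
    have hζ := IsCyclotomicExtension.zeta_spec p ℚ K
    have hpn : ¬ (p : ℤ) ∣ n := by
      have h1 : (hζ.toInteger - 1) ^ 1 ∣ (u : 𝓞 K) - n * 1 := by
        rw [pow_one, mul_one]
        refine Dvd.dvd.trans ?_ hn
        exact (dvd_pow_self _ (by have := hp.two_le; omega)).trans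
          (IsCyclotomicExtension.Rat.associated_zeta_sub_one_pow_prime p hζ).dvd
      exact not_dvd_of_unit hζ le_rfl u h1
    have hcop : IsCoprime n (p : ℤ) := by
      rw [isCoprime_comm]
      exact (Nat.prime_iff_prime_int.1 hp).coprime_iff_not_dvd.2 hpn
    obtain ⟨a, b, hab⟩ := hcop
    have hab' : (a : 𝓞 K) * n + b * p = 1 := by
      exact_mod_cast congrArg (Int.cast : ℤ → 𝓞 K) hab
    obtain ⟨c, hc⟩ := hn
    refine ⟨a, ⟨(↑u⁻¹ : 𝓞 K) * (b - a * c), ?_⟩⟩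
    have hinv : (↑u⁻¹ : 𝓞 K) * u = 1 := Units.inv_mul u
    linear_combination (a : 𝓞 K) * hinv - (↑u⁻¹ : 𝓞 K) * hab' - (↑u⁻¹ : 𝓞 K) * a * hc

lemma mem_intUnits {u : (𝓞 K)ˣ} : u ∈ intUnits p K ↔ ∃ n : ℤ, (p : 𝓞 K) ∣ (u : 𝓞 K) - n :=
  Iff.rfl

lemma pow_mem_intUnits (u : (𝓞 K)ˣ) : u ^ p ∈ intUnits p K := by
  have hζ := IsCyclotomicExtension.zeta_spec p ℚ K
  obtain ⟨n, hn⟩ := exists_int_pow_sub hζ (u : 𝓞 K)
  exact ⟨n, by simpa using hn⟩

theorem _root_.Fermat.Agent.S11.kummerLemma_of_filtration (hp : 3 ≤ p) (hζ : IsPrimitiveRoot ζ p)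
    (r : ℕ) (hr : r = (p - 1) / 2) (e : Fin r → (𝓞 K)ˣ) (s : Fin r → ℕ) (hs : StrictMono s)
    (hs1 : ∀ i, 1 ≤ s i) (hs2 : ∀ i, s i + 2 ≤ p) (n β : Fin r → ℤ)
    (hβ : ∀ i, ¬ (p : ℤ) ∣ β i)
    (h : ∀ i, (hζ.toInteger - 1) ^ (s i + 1) ∣
      (e i : 𝓞 K) - n i * (1 + β i * (hζ.toInteger - 1) ^ (s i))) :
    KummerLemma p K := by
  subst hr
  have hpp : p.Prime := Fact.out
  let M := Additive ((𝓞 K)ˣ ⧸ intUnits p K)
  have hkill : ∀ x : M, p • x = 0 := by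
    intro x
    obtain ⟨u, rfl⟩ := QuotientGroup.mk_surjective (Additive.toMul x)
    change Additive.ofMul ((u : (𝓞 K)ˣ ⧸ intUnits p K) ^ p) = 0
    rw [← QuotientGroup.mk_pow, (QuotientGroup.eq_one_iff _).2 (pow_mem_intUnits u)]
    rfl
  let _ : Module (ZMod p) M := AddCommGroup.zmodModule (n := p) (G := M) hkill
  let dl : Additive (𝓞 K)ˣ →+ M := (QuotientGroup.mk' (intUnits p K)).toAdditive
  refine kummerLemma_of_dlog (M := M) hp dl ?_ e ?_
  · intro u n hn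
    change Additive.ofMul ((u : (𝓞 K)ˣ ⧸ intUnits p K)) = 0
    rw [(QuotientGroup.eq_one_iff _).2 (show u ∈ intUnits p K from ⟨n, hn⟩)]
    rfl
  · rw [Fintype.linearIndependent_iff]
    intro g hg i
    have h1 : ∑ i, g i • dl (Additive.ofMul (e i)) =
        dl (Additive.ofMul (∏ i, e i ^ (g i).val)) := by
      rw [ofMul_prod, map_sum]
      refine Finset.sum_congr rfl fun i _ => ?_
      rw [ofMul_pow, map_nsmul]
      have h5 := Nat.cast_smul_eq_nsmul (ZMod p) (g i).val (dl (Additive.ofMul (e i)))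
      rw [ZMod.natCast_zmod_val] at h5
      exact h5
    rw [h1] at hg
    have h2 : ∏ i, e i ^ (g i).val ∈ intUnits p K := by
      rw [← QuotientGroup.eq_one_iff]
      exact hg
    obtain ⟨n₀, hn₀⟩ := h2
    have h3 := exponents_eq_zero hpp hζ.zeta_sub_one_prime'.ne_zero
      (IsCyclotomicExtension.Rat.associated_zeta_sub_one_pow_prime p hζ)
      (fun _ => IsCyclotomicExtension.Rat.zeta_sub_one_dvd_intCast_iff' p hζ)
      (fun i => (e i : 𝓞 K)) s hs hs1 hs2 n β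
      (fun i => not_dvd_of_unit hζ (Nat.succ_le_succ (Nat.zero_le _)) (e i) (h i)) hβ h
      (fun i => (g i).val) (fun i => ZMod.val_lt _) n₀ (by simpa using hn₀) i
    exact (ZMod.val_eq_zero _).1 h3

end cyclo

end Filtration

end Fermat.Agent.S11
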