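import Fermat.Agent.S11.KummerDlog

set_option autoImplicit false

open NumberField Polynomial

namespace Fermat.Agent.S11

variable {p : ℕ} [hp : Fact p.Prime]
variable {K : Type*} [Field K] [NumberField K] [IsCyclotomicExtension {p} ℚ K]
  {ζ : K} (hζ : IsPrimitiveRoot ζ p)

/-- `ζ` as a unit of `𝓞 K`. -/
noncomputable def zetaUnit : (𝓞 K)ˣ := (hζ.toInteger_isPrimitiveRoot.isUnit hp.out.ne_zero).unit

omit [NumberField K] [IsCyclotomicExtension {p} ℚ K] in
lemma zetaUnit_val : ((zetaUnit hζ : (𝓞 K)ˣ) : 𝓞 K) = hζ.toInteger := rfl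

omit hp in
lemma rank_eq (hpp : p.Prime) (hp2 : 2 < p) : Units.rank K = (p - 3) / 2 := by
  have : NeZero p := ⟨hpp.ne_zero⟩
  rw [Units.rank, InfinitePlace.card_eq_nrRealPlaces_add_nrComplexPlaces,
    IsCyclotomicExtension.Rat.nrRealPlaces_eq_zero K hp2,
    IsCyclotomicExtension.Rat.nrComplexPlaces_eq_totient_div_two p K, Nat.totient_prime hpp]
  omega

lemma Lf_neg_one (hp2 : 2 < p) : Lf hζ hp2 (-1 : (𝓞 K)ˣ) = 0 :=
  Lf_eq_zero_of_congr hζ hp2 (-1) (-1) (by simp)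

theorem kummer_generic (hp2 : 2 < p)
    {ι : Type*} [Fintype ι] (hι : Units.rank K ≤ Fintype.card ι)
    (c : ι → (𝓞 K)ˣ)
    (hind : ∀ (k : ℤ) (g : ι → ℤ),
      k • Lf hζ hp2 (zetaUnit hζ) + ∑ a, g a • Lf hζ hp2 (c a) = 0 →
        (p : ℤ) ∣ k ∧ ∀ a, (p : ℤ) ∣ g a)
    (u : (𝓞 K)ˣ) (n : ℤ) (h : (p : 𝓞 K) ∣ (u : 𝓞 K) - n) : ∃ v : (𝓞 K)ˣ, u = v ^ p := by
  classical
  have hodd : Odd p := hp.out.odd_of_ne_two hp2.ne'
  -- the family
  let U : Option ι → (𝓞 K)ˣ := fun i => i.elim u c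
  let v : Option ι → Additive (𝓞 K)ˣ := fun i => Additive.ofMul (U i)
  have hnli : ¬ LinearIndependent ℤ v := by
    intro hli
    have := hli.fintype_card_le_finrank
    rw [Units.finrank_eq, Fintype.card_option] at this
    omega
  obtain ⟨g, hg, i0, hi0⟩ := Fintype.not_linearIndependent_iff.1 hnli
  obtain ⟨g', hg', hgcd⟩ := Finset.extract_gcd g (s := Finset.univ) ⟨i0, Finset.mem_univ _⟩
  set d := Finset.univ.gcd g with hd
  have hd0 : d ≠ 0 := by
    intro h0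
    rw [hd, Finset.gcd_eq_zero_iff] at h0
    exact hi0 (h0 i0 (Finset.mem_univ _))
  -- the relation in the unit group
  set w : (𝓞 K)ˣ := ∏ i, U i ^ g' i with hw
  have hwd : w ^ d = 1 := by
    have h1 : Additive.ofMul (w ^ d) = 0 := by
      rw [← hg, hw, ← Finset.prod_zpow, ofMul_prod]
      refine Finset.sum_congr rfl fun i hi => ?_
      rw [hg' i hi, ← zpow_mul, mul_comm, ofMul_zpow]
    exact h1
  have hwfin : IsOfFinOrder ((w : 𝓞 K) : K) := by
    have h1 : IsOfFinOrder w := isOfFinOrder_iff_zpow_eq_one.2 ⟨d, hd0, hwd⟩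
    have h2 : IsOfFinOrder (w : 𝓞 K) := (Units.coeHom (𝓞 K)).isOfFinOrder h1
    exact (algebraMap (𝓞 K) K).isOfFinOrder h2
  obtain ⟨k, -, hk⟩ := hζ.exists_pow_or_neg_mul_pow_of_isOfFinOrder hodd hwfin
  have hwk : w = zetaUnit hζ ^ k ∨ w = - zetaUnit hζ ^ k := by
    rcases hk with hk | hk
    · left
      ext
      simpa [zetaUnit_val] using hk
    · right
      ext
      simpa [zetaUnit_val] using hk
  have hLw : Lf hζ hp2 w = (k : ℤ) • Lf hζ hp2 (zetaUnit hζ) := by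
    rcases hwk with hk | hk
    · rw [hk, Lf_pow, natCast_zsmul]
    · rw [hk, ← neg_one_mul, Lf_mul, Lf_neg_one, zero_add, Lf_pow, natCast_zsmul]
  have hLu : Lf hζ hp2 u = 0 := Lf_eq_zero_of_congr hζ hp2 u n h
  have hLw2 : Lf hζ hp2 w = ∑ a, g' (some a) • Lf hζ hp2 (c a) := by
    rw [hw, Lf_prod, Fintype.sum_option]
    simp only [Lf_zpow]
    simp [U, hLu]
  obtain ⟨hpk, hpg⟩ := hind (-(k : ℤ)) (fun a => g' (some a)) (by
    rw [← hLw2, hLw, neg_smul, neg_add_cancel])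
  have hpn : ¬ (p : ℤ) ∣ g' none := by
    intro hdvd
    have : (p : ℤ) ∣ Finset.univ.gcd g' := by
      refine Finset.dvd_gcd fun i _ => ?_
      cases i with
      | none => exact hdvd
      | some a => exact hpg a
    rw [hgcd] at this
    have := Int.eq_one_of_dvd_one (by positivity) this
    have := hp.out.one_lt
    omega
  -- `u ^ (g' none)` is a `p`-th power
  obtain ⟨k', hk'⟩ : (p : ℤ) ∣ (k : ℤ) := by simpa using hpk
  choose e he using hpg
  have hpow : ∃ x : (𝓞 K)ˣ, u ^ g' none = x ^ (p : ℤ) := by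
    have h1 : w = u ^ g' none * ∏ a, c a ^ g' (some a) := by
      rw [hw, Fintype.prod_option]
      rfl
    have h2 : u ^ g' none = w * (∏ a, c a ^ e a)⁻¹ ^ (p : ℤ) := by
      rw [h1, inv_zpow, ← Finset.prod_zpow]
      have : ∀ a, (c a ^ e a) ^ (p : ℤ) = c a ^ g' (some a) := by
        intro a
        rw [← zpow_mul, he a, mul_comm]
      simp only [this]
      rw [mul_inv_cancel_right]
    have h3 : ∃ y : (𝓞 K)ˣ, w = y ^ (p : ℤ) := by
      have hz : zetaUnit hζ ^ k = (zetaUnit hζ ^ k') ^ (p : ℤ) := by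
        rw [← zpow_mul, mul_comm, ← hk', zpow_natCast]
      rcases hwk with hk | hk
      · exact ⟨zetaUnit hζ ^ k', by rw [hk, hz]⟩
      · refine ⟨- zetaUnit hζ ^ k', ?_⟩
        rw [hk, hz, zpow_natCast, zpow_natCast, hodd.neg_pow]
    obtain ⟨y, hy⟩ := h3
    exact ⟨y * (∏ a, c a ^ e a)⁻¹, by rw [h2, hy, mul_zpow]⟩
  obtain ⟨x, hx⟩ := hpow
  have hcop : IsCoprime (g' none) (p : ℤ) := by
    rw [isCoprime_comm]
    exact (Nat.prime_iff_prime_int.1 hp.out).coprime_iff_not_dvd.2 hpn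
  obtain ⟨a, b, hab⟩ := hcop
  refine ⟨x ^ a * u ^ b, ?_⟩
  have : u = u ^ (a * g' none + b * p) := by rw [hab, zpow_one]
  conv_lhs => rw [this]
  rw [zpow_add, mul_comm a, zpow_mul, hx, mul_pow, ← zpow_natCast, ← zpow_natCast, ← zpow_mul,
    ← zpow_mul, ← zpow_mul, mul_comm (p : ℤ) a]

end Fermat.Agent.S11
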