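import Fermat.Agent.S11.KummerCert

set_option autoImplicit false

open NumberField Polynomial

namespace Fermat.Agent.S11

lemma indep_5 (k g0 : ℤ)
    (h0 : (5 : ℤ) ∣ (1) * k + (-2) * g0)
    (h1 : (5 : ℤ) ∣ (-1) * k + (1) * g0)
    (h2 : (5 : ℤ) ∣ (1) * k + (2) * g0)
    : (5 : ℤ) ∣ k ∧ (5 : ℤ) ∣ g0 := by
  obtain ⟨m0, hm0⟩ := h0
  obtain ⟨m1, hm1⟩ := h1
  obtain ⟨m2, hm2⟩ := h2
  refine ⟨?_, ?_⟩
  · exact ⟨(-1) * m0 + (-2) * m1 - (0), by linear_combination (-1) * hm0 + (-2) * hm1⟩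
  · exact ⟨(-1) * m0 + (-1) * m1 - (0), by linear_combination (-1) * hm0 + (-1) * hm1⟩

theorem kummer_lemma_5 (K : Type*) [Field K] [NumberField K] [IsCyclotomicExtension {5} ℚ K]
    (u : (𝓞 K)ˣ) (n : ℤ) (h : ((5 : ℕ) : 𝓞 K) ∣ (u : 𝓞 K) - n) : ∃ v : (𝓞 K)ˣ, u = v ^ 5 := by
  have : Fact (Nat.Prime 5) := ⟨by norm_num⟩
  have ht : (tA 5) ^ 3 = 0 := tA_pow 5
  have hP : (5 : TA 5) = 0 := by exact_mod_cast p_eq_zero_TA 5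
  refine kummer_of_cert (p := 5) (by norm_num) 1 (by norm_num) (by norm_num)
    ((1) + (-1) * tA 5 + (1) * tA 5 ^ 2)
    ![(-2) + (1) * tA 5 + (2) * tA 5 ^ 2] ?_ ?_ ?_ u n h
  · generalize tA 5 = t at *
    linear_combination ((1)) * ht + (0) * hP
  · intro a
    generalize tA 5 = t at *
    fin_cases a
    · norm_num [Finset.sum_range_succ]
      linear_combination ((2)) * ht + ((-1) + (1) * t ^ 2) * hP
  · intro k g hkg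
    rw [Fin.sum_univ_one] at hkg
    simp only [Matrix.cons_val] at hkg
    have hz := coeff_extract 5 (fun i => [(1) * k + (-2) * g 0, (-1) * k + (1) * g 0, (1) * k + (2) * g 0].getD i 0) (by
      norm_num [Finset.sum_range_succ] at hkg ⊢
      linear_combination hkg)
    have h0 := hz 0 (by norm_num)
    have h1 := hz 1 (by norm_num)
    have h2 := hz 2 (by norm_num)
    simp only [List.getD_cons_zero, List.getD_cons_succ] at h0 h1 h2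
    obtain ⟨hk, hg0⟩ := indep_5 (k) (g 0) h0 h1 h2
    refine ⟨hk, fun a => ?_⟩
    fin_cases a
    exacts [hg0]

lemma indep_7 (k g0 g1 : ℤ)
    (h0 : (7 : ℤ) ∣ (1) * k + (-3) * g0 + (1) * g1)
    (h1 : (7 : ℤ) ∣ (-1) * k + (-2) * g0 + (2) * g1)
    (h2 : (7 : ℤ) ∣ (1) * k + (1) * g0)
    (h3 : (7 : ℤ) ∣ (-1) * k + (3) * g0 + (-3) * g1)
    (h4 : (7 : ℤ) ∣ (1) * k + (2) * g0 + (3) * g1)
    : (7 : ℤ) ∣ k ∧ (7 : ℤ) ∣ g0 ∧ (7 : ℤ) ∣ g1 := by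
  obtain ⟨m0, hm0⟩ := h0
  obtain ⟨m1, hm1⟩ := h1
  obtain ⟨m2, hm2⟩ := h2
  obtain ⟨m3, hm3⟩ := h3
  obtain ⟨m4, hm4⟩ := h4
  refine ⟨?_, ?_, ?_⟩
  · exact ⟨(-2) * m1 + (1) * m3 - ((1) * g0 + (-1) * g1), by linear_combination (-2) * hm1 + (1) * hm3⟩
  · exact ⟨(3) * m0 + (-3) * m1 + (-1) * m3 - ((1) * k + (-1) * g0), by linear_combination (3) * hm0 + (-3) * hm1 + (-1) * hm3⟩
  · exact ⟨(3) * m0 + (3) * m3 - ((-1) * g1), by linear_combination (3) * hm0 + (3) * hm3⟩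

theorem kummer_lemma_7 (K : Type*) [Field K] [NumberField K] [IsCyclotomicExtension {7} ℚ K]
    (u : (𝓞 K)ˣ) (n : ℤ) (h : ((7 : ℕ) : 𝓞 K) ∣ (u : 𝓞 K) - n) : ∃ v : (𝓞 K)ˣ, u = v ^ 7 := by
  have : Fact (Nat.Prime 7) := ⟨by norm_num⟩
  have ht : (tA 7) ^ 5 = 0 := tA_pow 7
  have hP : (7 : TA 7) = 0 := by exact_mod_cast p_eq_zero_TA 7
  refine kummer_of_cert (p := 7) (by norm_num) 2 (by norm_num) (by norm_num)
    ((1) + (-1) * tA 7 + (1) * tA 7 ^ 2 + (-1) * tA 7 ^ 3 + (1) * tA 7 ^ 4)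
    ![(-3) + (-2) * tA 7 + (1) * tA 7 ^ 2 + (3) * tA 7 ^ 3 + (2) * tA 7 ^ 4,
      (1) + (2) * tA 7 + (-3) * tA 7 ^ 3 + (3) * tA 7 ^ 4] ?_ ?_ ?_ u n h
  · generalize tA 7 = t at *
    linear_combination ((1)) * ht + (0) * hP
  · intro a
    generalize tA 7 = t at *
    fin_cases a
    · norm_num [Finset.sum_range_succ]
      linear_combination ((2)) * ht + ((-1) + (-1) * t + (1) * t ^ 3 + (1) * t ^ 4) * hP
    · norm_num [Finset.sum_range_succ]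
      linear_combination ((6) + (3) * t) * ht + ((1) * t + (1) * t ^ 2 + (-1) * t ^ 3) * hP
  · intro k g hkg
    rw [Fin.sum_univ_two] at hkg
    simp only [Matrix.cons_val] at hkg
    have hz := coeff_extract 7 (fun i => [(1) * k + (-3) * g 0 + (1) * g 1, (-1) * k + (-2) * g 0 + (2) * g 1, (1) * k + (1) * g 0, (-1) * k + (3) * g 0 + (-3) * g 1, (1) * k + (2) * g 0 + (3) * g 1].getD i 0) (by
      norm_num [Finset.sum_range_succ] at hkg ⊢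
      linear_combination hkg)
    have h0 := hz 0 (by norm_num)
    have h1 := hz 1 (by norm_num)
    have h2 := hz 2 (by norm_num)
    have h3 := hz 3 (by norm_num)
    have h4 := hz 4 (by norm_num)
    simp only [List.getD_cons_zero, List.getD_cons_succ] at h0 h1 h2 h3 h4
    obtain ⟨hk, hg0, hg1⟩ := indep_7 (k) (g 0) (g 1) h0 h1 h2 h3 h4
    refine ⟨hk, fun a => ?_⟩
    fin_cases a
    exacts [hg0, hg1]

lemma indep_11 (k g0 g1 g2 g3 : ℤ)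
    (h0 : (11 : ℤ) ∣ (1) * k + (-5) * g0 + (1) * g1 + (-4) * g2 + (2) * g3)
    (h1 : (11 : ℤ) ∣ (-1) * k + (-3) * g0 + (-4) * g1 + (-3) * g2)
    (h2 : (11 : ℤ) ∣ (1) * k + (-4) * g0 + (1) * g2 + (-1) * g3)
    (h3 : (11 : ℤ) ∣ (-1) * k + (2) * g0 + (5) * g1 + (-3) * g2 + (3) * g3)
    (h4 : (11 : ℤ) ∣ (1) * k + (-1) * g0 + (-5) * g1 + (-4) * g2)
    (h5 : (11 : ℤ) ∣ (-1) * k + (-5) * g0 + (-4) * g1 + (-5) * g2 + (-5) * g3)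
    (h6 : (11 : ℤ) ∣ (1) * k + (-3) * g0 + (2) * g1 + (4) * g2 + (5) * g3)
    (h7 : (11 : ℤ) ∣ (-1) * k + (-4) * g0 + (3) * g1 + (-5) * g3)
    (h8 : (11 : ℤ) ∣ (1) * k + (2) * g0 + (5) * g3)
    : (11 : ℤ) ∣ k ∧ (11 : ℤ) ∣ g0 ∧ (11 : ℤ) ∣ g1 ∧ (11 : ℤ) ∣ g2 ∧ (11 : ℤ) ∣ g3 := by
  obtain ⟨m0, hm0⟩ := h0
  obtain ⟨m1, hm1⟩ := h1
  obtain ⟨m2, hm2⟩ := h2
  obtain ⟨m3, hm3⟩ := h3
  obtain ⟨m4, hm4⟩ := h4
  obtain ⟨m5, hm5⟩ := h5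
  obtain ⟨m6, hm6⟩ := h6
  obtain ⟨m7, hm7⟩ := h7
  obtain ⟨m8, hm8⟩ := h8
  refine ⟨?_, ?_, ?_, ?_, ?_⟩
  · exact ⟨(-2) * m0 + (1) * m1 + (-2) * m3 + (-2) * m7 - ((1) * g0 + (-2) * g1 + (1) * g2), by linear_combination (-2) * hm0 + (1) * hm1 + (-2) * hm3 + (-2) * hm7⟩
  · exact ⟨(-5) * m0 + (-3) * m1 + (-3) * m5 + (1) * m7 - ((4) * g0 + (2) * g1 + (4) * g2), by linear_combination (-5) * hm0 + (-3) * hm1 + (-3) * hm5 + (1) * hm7⟩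
  · exact ⟨(-4) * m0 + (-4) * m1 + (1) * m3 + (5) * m5 + (5) * m7 - ((-1) * k + (-1) * g0 + (1) * g1 + (-5) * g3), by linear_combination (-4) * hm0 + (-4) * hm1 + (1) * hm3 + (5) * hm5 + (5) * hm7⟩
  · exact ⟨(4) * m1 + (3) * m3 + (4) * m7 - ((-1) * k + (-2) * g0 + (1) * g1 + (-2) * g2 + (-1) * g3), by linear_combination (4) * hm1 + (3) * hm3 + (4) * hm7⟩
  · exact ⟨(2) * m0 + (2) * m1 + (1) * m3 + (1) * m5 + (-2) * m7 - ((-1) * g0 + (-1) * g1 + (-2) * g2 + (1) * g3), by linear_combination (2) * hm0 + (2) * hm1 + (1) * hm3 + (1) * hm5 + (-2) * hm7⟩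

theorem kummer_lemma_11 (K : Type*) [Field K] [NumberField K] [IsCyclotomicExtension {11} ℚ K]
    (u : (𝓞 K)ˣ) (n : ℤ) (h : ((11 : ℕ) : 𝓞 K) ∣ (u : 𝓞 K) - n) : ∃ v : (𝓞 K)ˣ, u = v ^ 11 := by
  have : Fact (Nat.Prime 11) := ⟨by norm_num⟩
  have ht : (tA 11) ^ 9 = 0 := tA_pow 11
  have hP : (11 : TA 11) = 0 := by exact_mod_cast p_eq_zero_TA 11
  refine kummer_of_cert (p := 11) (by norm_num) 4 (by norm_num) (by norm_num)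
    ((1) + (-1) * tA 11 + (1) * tA 11 ^ 2 + (-1) * tA 11 ^ 3 + (1) * tA 11 ^ 4 + (-1) * tA 11 ^ 5 + (1) * tA 11 ^ 6 + (-1) * tA 11 ^ 7 + (1) * tA 11 ^ 8)
    ![(-5) + (-3) * tA 11 + (-4) * tA 11 ^ 2 + (2) * tA 11 ^ 3 + (-1) * tA 11 ^ 4 + (-5) * tA 11 ^ 5 + (-3) * tA 11 ^ 6 + (-4) * tA 11 ^ 7 + (2) * tA 11 ^ 8,
      (1) + (-4) * tA 11 + (5) * tA 11 ^ 3 + (-5) * tA 11 ^ 4 + (-4) * tA 11 ^ 5 + (2) * tA 11 ^ 6 + (3) * tA 11 ^ 7,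
      (-4) + (-3) * tA 11 + (1) * tA 11 ^ 2 + (-3) * tA 11 ^ 3 + (-4) * tA 11 ^ 4 + (-5) * tA 11 ^ 5 + (4) * tA 11 ^ 6,
      (2) + (-1) * tA 11 ^ 2 + (3) * tA 11 ^ 3 + (-5) * tA 11 ^ 5 + (5) * tA 11 ^ 6 + (-5) * tA 11 ^ 7 + (5) * tA 11 ^ 8] ?_ ?_ ?_ u n h
  · generalize tA 11 = t at *
    linear_combination ((1)) * ht + (0) * hP
  · intro a
    generalize tA 11 = t at *
    fin_cases a
    · norm_num [Finset.sum_range_succ]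
      linear_combination ((2)) * ht + ((-1) + (-1) * t + (-1) * t ^ 2 + (-1) * t ^ 5 + (-1) * t ^ 6 + (-1) * t ^ 7) * hP
    · norm_num [Finset.sum_range_succ]
      linear_combination ((3)) * ht + ((-1) * t + (-1) * t ^ 2 + (1) * t ^ 3 + (-2) * t ^ 5 + (-1) * t ^ 6 + (1) * t ^ 7 + (1) * t ^ 8) * hP
    · norm_num [Finset.sum_range_succ]
      linear_combination ((4)) * ht + ((-2) + (-4) * t + (-3) * t ^ 2 + (-2) * t ^ 3 + (-3) * t ^ 4 + (-5) * t ^ 5 + (-3) * t ^ 6 + (1) * t ^ 8) * hP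
    · norm_num [Finset.sum_range_succ]
      linear_combination ((20) + (30) * t + (20) * t ^ 2 + (5) * t ^ 3) * ht + ((1) * t ^ 3 + (2) * t ^ 4 + (-1) * t ^ 6 + (-2) * t ^ 7) * hP
  · intro k g hkg
    rw [Fin.sum_univ_four] at hkg
    simp only [Matrix.cons_val] at hkg
    have hz := coeff_extract 11 (fun i => [(1) * k + (-5) * g 0 + (1) * g 1 + (-4) * g 2 + (2) * g 3, (-1) * k + (-3) * g 0 + (-4) * g 1 + (-3) * g 2, (1) * k + (-4) * g 0 + (1) * g 2 + (-1) * g 3, (-1) * k + (2) * g 0 + (5) * g 1 + (-3) * g 2 + (3) * g 3, (1) * k + (-1) * g 0 + (-5) * g 1 + (-4) * g 2, (-1) * k + (-5) * g 0 + (-4) * g 1 + (-5) * g 2 + (-5) * g 3, (1) * k + (-3) * g 0 + (2) * g 1 + (4) * g 2 + (5) * g 3, (-1) * k + (-4) * g 0 + (3) * g 1 + (-5) * g 3, (1) * k + (2) * g 0 + (5) * g 3].getD i 0) (by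
      norm_num [Finset.sum_range_succ] at hkg ⊢
      linear_combination hkg)
    have h0 := hz 0 (by norm_num)
    have h1 := hz 1 (by norm_num)
    have h2 := hz 2 (by norm_num)
    have h3 := hz 3 (by norm_num)
    have h4 := hz 4 (by norm_num)
    have h5 := hz 5 (by norm_num)
    have h6 := hz 6 (by norm_num)
    have h7 := hz 7 (by norm_num)
    have h8 := hz 8 (by norm_num)
    simp only [List.getD_cons_zero, List.getD_cons_succ] at h0 h1 h2 h3 h4 h5 h6 h7 h8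
    obtain ⟨hk, hg0, hg1, hg2, hg3⟩ := indep_11 (k) (g 0) (g 1) (g 2) (g 3) h0 h1 h2 h3 h4 h5 h6 h7 h8
    refine ⟨hk, fun a => ?_⟩
    fin_cases a
    exacts [hg0, hg1, hg2, hg3]

lemma indep_13 (k g0 g1 g2 g3 g4 : ℤ)
    (h0 : (13 : ℤ) ∣ (1) * k + (-6) * g0 + (1) * g1 + (-5) * g2 + (2) * g3 + (-4) * g4)
    (h1 : (13 : ℤ) ∣ (-1) * k + (3) * g0 + (4) * g1 + (3) * g2 + (-5) * g4)
    (h2 : (13 : ℤ) ∣ (1) * k + (5) * g0 + (-2) * g2 + (-1) * g3 + (3) * g4)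
    (h3 : (13 : ℤ) ∣ (-1) * k + (4) * g0 + (3) * g1 + (-2) * g2 + (6) * g3 + (-5) * g4)
    (h4 : (13 : ℤ) ∣ (1) * k + (-2) * g0 + (-3) * g1 + (1) * g2 + (-4) * g4)
    (h5 : (13 : ℤ) ∣ (-1) * k + (1) * g0 + (2) * g1 + (1) * g2 + (2) * g3 + (1) * g4)
    (h6 : (13 : ℤ) ∣ (1) * k + (6) * g0 + (-1) * g1 + (-2) * g2 + (-2) * g3 + (6) * g4)
    (h7 : (13 : ℤ) ∣ (-1) * k + (-3) * g0 + (-4) * g1 + (5) * g2 + (4) * g3 + (-6) * g4)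
    (h8 : (13 : ℤ) ∣ (1) * k + (-5) * g0 + (4) * g2 + (-6) * g3 + (6) * g4)
    (h9 : (13 : ℤ) ∣ (-1) * k + (-4) * g0 + (-3) * g1 + (-4) * g2 + (3) * g3 + (-6) * g4)
    (h10 : (13 : ℤ) ∣ (1) * k + (2) * g0 + (3) * g1 + (4) * g2 + (5) * g3 + (6) * g4)
    : (13 : ℤ) ∣ k ∧ (13 : ℤ) ∣ g0 ∧ (13 : ℤ) ∣ g1 ∧ (13 : ℤ) ∣ g2 ∧ (13 : ℤ) ∣ g3 ∧ (13 : ℤ) ∣ g4 := by
  obtain ⟨m0, hm0⟩ := h0
  obtain ⟨m1, hm1⟩ := h1
  obtain ⟨m2, hm2⟩ := h2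
  obtain ⟨m3, hm3⟩ := h3
  obtain ⟨m4, hm4⟩ := h4
  obtain ⟨m5, hm5⟩ := h5
  obtain ⟨m6, hm6⟩ := h6
  obtain ⟨m7, hm7⟩ := h7
  obtain ⟨m8, hm8⟩ := h8
  obtain ⟨m9, hm9⟩ := h9
  obtain ⟨m10, hm10⟩ := h10
  refine ⟨?_, ?_, ?_, ?_, ?_, ?_⟩
  · exact ⟨(1) * m0 + (3) * m1 + (3) * m3 + (-4) * m5 + (-6) * m7 + (4) * m9 - ((1) * g0 + (2) * g1 + (-4) * g2 + (-2) * g4), by linear_combination (1) * hm0 + (3) * hm1 + (3) * hm3 + (-4) * hm5 + (-6) * hm7 + (4) * hm9⟩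
  · exact ⟨(-3) * m0 + (2) * m1 + (-3) * m3 + (-6) * m5 + (-2) * m7 + (6) * m9 - ((-1) * g0 + (-2) * g1 + (-1) * g2 + (-2) * g3 + (-1) * g4), by linear_combination (-3) * hm0 + (2) * hm1 + (-3) * hm3 + (-6) * hm5 + (-2) * hm7 + (6) * hm9⟩
  · exact ⟨(-1) * m0 + (-1) * m1 + (2) * m3 + (4) * m5 + (-6) * m9 - ((3) * g0 + (2) * g1 + (2) * g2 + (3) * g4), by linear_combination (-1) * hm0 + (-1) * hm1 + (2) * hm3 + (4) * hm5 + (-6) * hm9⟩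
  · exact ⟨(-6) * m0 + (-2) * m1 + (-4) * m3 + (-4) * m5 + (6) * m7 + (-2) * m9 - ((-4) * g1 + (5) * g2 + (-2) * g3 + (2) * g4), by linear_combination (-6) * hm0 + (-2) * hm1 + (-4) * hm3 + (-4) * hm5 + (6) * hm7 + (-2) * hm9⟩
  · exact ⟨(4) * m0 + (2) * m1 + (2) * m3 + (-6) * m5 + (1) * m7 + (5) * m9 - ((-3) * g0 + (-1) * g1 + (-3) * g2 + (2) * g3 + (-6) * g4), by linear_combination (4) * hm0 + (2) * hm1 + (2) * hm3 + (-6) * hm5 + (1) * hm7 + (5) * hm9⟩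
  · exact ⟨(4) * m0 + (1) * m1 + (2) * m3 + (-2) * m5 + (1) * m7 + (2) * m9 - ((-2) * g0 + (-2) * g2 + (2) * g3 + (-4) * g4), by linear_combination (4) * hm0 + (1) * hm1 + (2) * hm3 + (-2) * hm5 + (1) * hm7 + (2) * hm9⟩

theorem kummer_lemma_13 (K : Type*) [Field K] [NumberField K] [IsCyclotomicExtension {13} ℚ K]
    (u : (𝓞 K)ˣ) (n : ℤ) (h : ((13 : ℕ) : 𝓞 K) ∣ (u : 𝓞 K) - n) : ∃ v : (𝓞 K)ˣ, u = v ^ 13 := by
  have : Fact (Nat.Prime 13) := ⟨by norm_num⟩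
  have ht : (tA 13) ^ 11 = 0 := tA_pow 13
  have hP : (13 : TA 13) = 0 := by exact_mod_cast p_eq_zero_TA 13
  refine kummer_of_cert (p := 13) (by norm_num) 5 (by norm_num) (by norm_num)
    ((1) + (-1) * tA 13 + (1) * tA 13 ^ 2 + (-1) * tA 13 ^ 3 + (1) * tA 13 ^ 4 + (-1) * tA 13 ^ 5 + (1) * tA 13 ^ 6 + (-1) * tA 13 ^ 7 + (1) * tA 13 ^ 8 + (-1) * tA 13 ^ 9 + (1) * tA 13 ^ 10)
    ![(-6) + (3) * tA 13 + (5) * tA 13 ^ 2 + (4) * tA 13 ^ 3 + (-2) * tA 13 ^ 4 + (1) * tA 13 ^ 5 + (6) * tA 13 ^ 6 + (-3) * tA 13 ^ 7 + (-5) * tA 13 ^ 8 + (-4) * tA 13 ^ 9 + (2) * tA 13 ^ 10,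
      (1) + (4) * tA 13 + (3) * tA 13 ^ 3 + (-3) * tA 13 ^ 4 + (2) * tA 13 ^ 5 + (-1) * tA 13 ^ 6 + (-4) * tA 13 ^ 7 + (-3) * tA 13 ^ 9 + (3) * tA 13 ^ 10,
      (-5) + (3) * tA 13 + (-2) * tA 13 ^ 2 + (-2) * tA 13 ^ 3 + (1) * tA 13 ^ 4 + (1) * tA 13 ^ 5 + (-2) * tA 13 ^ 6 + (5) * tA 13 ^ 7 + (4) * tA 13 ^ 8 + (-4) * tA 13 ^ 9 + (4) * tA 13 ^ 10,
      (2) + (-1) * tA 13 ^ 2 + (6) * tA 13 ^ 3 + (2) * tA 13 ^ 5 + (-2) * tA 13 ^ 6 + (4) * tA 13 ^ 7 + (-6) * tA 13 ^ 8 + (3) * tA 13 ^ 9 + (5) * tA 13 ^ 10,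
      (-4) + (-5) * tA 13 + (3) * tA 13 ^ 2 + (-5) * tA 13 ^ 3 + (-4) * tA 13 ^ 4 + (1) * tA 13 ^ 5 + (6) * tA 13 ^ 6 + (-6) * tA 13 ^ 7 + (6) * tA 13 ^ 8 + (-6) * tA 13 ^ 9 + (6) * tA 13 ^ 10] ?_ ?_ ?_ u n h
  · generalize tA 13 = t at *
    linear_combination ((1)) * ht + (0) * hP
  · intro a
    generalize tA 13 = t at *
    fin_cases a
    · norm_num [Finset.sum_range_succ]
      linear_combination ((2)) * ht + ((-1) + (1) * t ^ 2 + (1) * t ^ 3 + (1) * t ^ 6 + (-1) * t ^ 8 + (-1) * t ^ 9) * hP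
    · norm_num [Finset.sum_range_succ]
      linear_combination ((6) + (3) * t) * ht + ((1) * t + (1) * t ^ 2 + (1) * t ^ 3 + (-1) * t ^ 7 + (-1) * t ^ 8 + (-1) * t ^ 9) * hP
    · norm_num [Finset.sum_range_succ]
      linear_combination ((12) + (12) * t + (4) * t ^ 2) * ht + ((-2) + (-2) * t + (-1) * t ^ 2 + (-1) * t ^ 3 + (-1) * t ^ 4 + (1) * t ^ 7 + (3) * t ^ 8 + (2) * t ^ 9 + (1) * t ^ 10) * hP
    · norm_num [Finset.sum_range_succ]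
      linear_combination ((54) + (59) * t + (28) * t ^ 2 + (5) * t ^ 3) * ht + ((2) * t ^ 3 + (4) * t ^ 4 + (5) * t ^ 5 + (3) * t ^ 6 + (2) * t ^ 7 + (-1) * t ^ 9 + (1) * t ^ 10) * hP
    · norm_num [Finset.sum_range_succ]
      linear_combination ((30) + (60) * t + (60) * t ^ 2 + (30) * t ^ 3 + (6) * t ^ 4) * ht + ((-3) + (-10) * t + (-14) * t ^ 2 + (-13) * t ^ 3 + (-11) * t ^ 4 + (-11) * t ^ 5 + (-7) * t ^ 6 + (-1) * t ^ 7 + (4) * t ^ 8 + (2) * t ^ 9 + (1) * t ^ 10) * hP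
  · intro k g hkg
    rw [Fin.sum_univ_five] at hkg
    simp only [Matrix.cons_val] at hkg
    have hz := coeff_extract 13 (fun i => [(1) * k + (-6) * g 0 + (1) * g 1 + (-5) * g 2 + (2) * g 3 + (-4) * g 4, (-1) * k + (3) * g 0 + (4) * g 1 + (3) * g 2 + (-5) * g 4, (1) * k + (5) * g 0 + (-2) * g 2 + (-1) * g 3 + (3) * g 4, (-1) * k + (4) * g 0 + (3) * g 1 + (-2) * g 2 + (6) * g 3 + (-5) * g 4, (1) * k + (-2) * g 0 + (-3) * g 1 + (1) * g 2 + (-4) * g 4, (-1) * k + (1) * g 0 + (2) * g 1 + (1) * g 2 + (2) * g 3 + (1) * g 4, (1) * k + (6) * g 0 + (-1) * g 1 + (-2) * g 2 + (-2) * g 3 + (6) * g 4, (-1) * k + (-3) * g 0 + (-4) * g 1 + (5) * g 2 + (4) * g 3 + (-6) * g 4, (1) * k + (-5) * g 0 + (4) * g 2 + (-6) * g 3 + (6) * g 4, (-1) * k + (-4) * g 0 + (-3) * g 1 + (-4) * g 2 + (3) * g 3 + (-6) * g 4, (1) * k + (2) * g 0 + (3) * g 1 + (4)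 * g 2 + (5) * g 3 + (6) * g 4].getD i 0) (by
      norm_num [Finset.sum_range_succ] at hkg ⊢
      linear_combination hkg)
    have h0 := hz 0 (by norm_num)
    have h1 := hz 1 (by norm_num)
    have h2 := hz 2 (by norm_num)
    have h3 := hz 3 (by norm_num)
    have h4 := hz 4 (by norm_num)
    have h5 := hz 5 (by norm_num)
    have h6 := hz 6 (by norm_num)
    have h7 := hz 7 (by norm_num)
    have h8 := hz 8 (by norm_num)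
    have h9 := hz 9 (by norm_num)
    have h10 := hz 10 (by norm_num)
    simp only [List.getD_cons_zero, List.getD_cons_succ] at h0 h1 h2 h3 h4 h5 h6 h7 h8 h9 h10
    obtain ⟨hk, hg0, hg1, hg2, hg3, hg4⟩ := indep_13 (k) (g 0) (g 1) (g 2) (g 3) (g 4) h0 h1 h2 h3 h4 h5 h6 h7 h8 h9 h10
    refine ⟨hk, fun a => ?_⟩
    fin_cases a
    exacts [hg0, hg1, hg2, hg3, hg4]

end Fermat.Agent.S11
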